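/-
S59, package TW-GAL (owner helper14; consumer: S59/TW wiring of helper53).
Deformations at a Taylor–Wiles prime `q` (`q ≡ 1` modulo the residue characteristic, the residual
Frobenius has distinct eigenvalues `α ≠ β`): the restriction to the decomposition group is a sum
of two characters.

Interfaces of the leaves (exact Lean statements).  Prove `theorem … : Stmt_X` in
`Fermat/Agent/S59/TWGal/H<seat>_<Name>.lean`, namespace `Fermat.Agent.S59.TWGal.H<seat>`.

* `Stmt_MatUnip` : a matrix `Y ≡ 1 mod I` with `Y ^ m ≡ 1 mod I ^ N`, `m` prime to `p ∈ I`, is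
                   `≡ 1 mod I ^ N`.
* `Stmt_MatDiag` : `Y ≡ 1 mod I`, `F = diag(a, b)`, `F Y ≡ Y ^ q F mod I ^ N`, `a - q b` and
                   `b - q a` units  ⟹  `Y` is diagonal modulo `I ^ N`.
* `Stmt_EIG`     : Hensel: an endomorphism of a free module of rank `2` over a henselian local
                   ring whose characteristic polynomial is `(X - α)(X - β)` modulo `𝔪`, `α ≠ β`,
                   has an eigenbasis.
* `Stmt_TAME`    : Galois theory at finite level: the image of the inertia group `I_P` in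
                   `Gal(F/ℚ)` is cyclic modulo elements of `q`-power order, Frobenius conjugates
                   the generator to its `q`-th power, and `D_P = ⟨φ⟩ I_P`.
* `Stmt_G1`      : the splitting.
-/
import Mathlib
import Fermat.Prelude.Def_GaloisRep_Adic
import Fermat.Prelude.Def_GaloisRep_LocalConditions
import Fermat.Prelude.Def_EllipticCurve_FrobeniusTrace
import Fermat.Prelude.Def_FLTPrelim_Ramification

set_option autoImplicit false

open Polynomial IsLocalRing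

namespace Fermat.Agent.S59.TWGal

/-- `Q̄`. -/
abbrev Qb : Type := AlgebraicClosure ℚ

/-- The absolute Galois group of `ℚ`. -/
abbrev GQ : Type := Qb ≃ₐ[ℚ] Qb

/-! ### Matrix lemmas -/

/-- **MatUnip**: `1 + M₂(I)` has no prime-to-`p` torsion modulo `I ^ N` (`p ∈ I`). -/
def Stmt_MatUnip : Prop :=
  ∀ (A : Type) [CommRing A] (I : Ideal A) (p m N : ℕ), (p : A) ∈ I → m.Coprime p →
  ∀ (Y : Matrix (Fin 2) (Fin 2) A), (∀ i j, (Y - 1) i j ∈ I) →
    (∀ i j, (Y ^ m - 1) i j ∈ I ^ N) → ∀ i j, (Y - 1) i j ∈ I ^ N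

/-- **MatDiag**: the tame relation `F Y F⁻¹ = Y ^ q` forces `Y ≡ 1 mod I` to be diagonal in an
eigenbasis of `F` (eigenvalues `a`, `b` with `a - q b`, `b - q a` units). -/
def Stmt_MatDiag : Prop :=
  ∀ (A : Type) [CommRing A] (I : Ideal A) (N q : ℕ) (a b : A),
    IsUnit (a - (q : A) * b) → IsUnit (b - (q : A) * a) →
  ∀ (Y : Matrix (Fin 2) (Fin 2) A), (∀ i j, (Y - 1) i j ∈ I) →
    (∀ i j, (Matrix.diagonal ![a, b] * Y - Y ^ q * Matrix.diagonal ![a, b]) i j ∈ I ^ N) →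
    Y 0 1 ∈ I ^ N ∧ Y 1 0 ∈ I ^ N

/-! ### Hensel -/

/-- **EIG**: eigenbasis from distinct residual eigenvalues. -/
def Stmt_EIG : Prop :=
  ∀ (A : Type) [CommRing A] [IsLocalRing A] [HenselianLocalRing A]
    (V : Type) [AddCommGroup V] [Module A V] [Module.Free A V] [Module.Finite A V],
    Module.finrank A V = 2 →
  ∀ (f : Module.End A V) (α β : ResidueField A), α ≠ β →
    (LinearMap.charpoly f).map (residue A) = (X - C α) * (X - C β) →
    ∃ (b : Module.Basis (Fin 2) A V) (a₁ a₂ : A),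
      residue A a₁ = α ∧ residue A a₂ = β ∧ f (b 0) = a₁ • b 0 ∧ f (b 1) = a₂ • b 1

/-! ### Tame inertia at finite level -/

/-- **TAME**: for a finite extension `F/ℚ` (inside `Q̄`), a place `P` over `q` and a Frobenius
`φ` at `P`: there is `τ₀ ∈ I_P` such that, modulo the subgroup fixing `F`,
every `σ ∈ I_P` is a power of `τ₀` up to an element of `q`-power order, `φ τ₀ φ⁻¹ = τ₀ ^ q` up to
an element of `q`-power order, and every element of `D_P` is `φ ^ n σ`, `σ ∈ I_P`. -/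
def Stmt_TAME : Prop :=
  ∀ (q : ℕ), q.Prime → ∀ (P : ValuationSubring Qb), P.LiesOverPrime q →
  ∀ (φ : GQ), P.IsFrobeniusAt φ q →
  ∀ (F : IntermediateField ℚ Qb), FiniteDimensional ℚ F →
    ∃ τ₀ ∈ P.inertiaSubgroupIn ℚ,
      (∀ σ ∈ P.inertiaSubgroupIn ℚ, ∃ j e : ℕ,
        ((τ₀ ^ j)⁻¹ * σ) ^ (q ^ e) ∈ F.fixingSubgroup) ∧
      (∃ e : ℕ, ((τ₀ ^ q)⁻¹ * (φ * τ₀ * φ⁻¹)) ^ (q ^ e) ∈ F.fixingSubgroup) ∧
      (∀ g ∈ P.decompositionSubgroup ℚ, ∃ (n : ℕ) (σ : GQ),
        σ ∈ P.inertiaSubgroupIn ℚ ∧ (φ ^ n * σ)⁻¹ * g ∈ F.fixingSubgroup)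

/-! ### The splitting -/

/-- **G1** (splitting at a Taylor–Wiles prime), hypotheses in terms of `ρ.ρ`:
inertia at `P` acts trivially modulo `𝔪`, the characteristic polynomial of `ρ(φ)` is
`(X - α)(X - β)` modulo `𝔪` with `α ≠ β`, `q ≡ 1` and `p ≡ 0` modulo `𝔪`.  Then `ρ` restricted
to the decomposition group `D_P` is diagonal in an eigenbasis of `ρ(φ)`. -/
def Stmt_G1 : Prop :=
  ∀ (A : Type) [CommRing A] [IsLocalRing A] [IsNoetherianRing A]
    [IsAdicComplete (maximalIdeal A) A] (p : ℕ), p.Prime → (p : A) ∈ maximalIdeal A →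
  ∀ (ρ : GaloisRepAdic A) (q : ℕ), q.Prime → (q : A) - 1 ∈ maximalIdeal A →
  ∀ (P : ValuationSubring Qb), P.LiesOverPrime q →
    (∀ σ ∈ P.inertiaSubgroupIn ℚ, ∀ v : ρ.V,
      ρ.ρ σ v - v ∈ maximalIdeal A • (⊤ : Submodule A ρ.V)) →
  ∀ (φ : GQ), P.IsFrobeniusAt φ q →
  ∀ (α β : ResidueField A), α ≠ β →
    (LinearMap.charpoly (ρ.ρ φ)).map (residue A) = (X - C α) * (X - C β) →
    ∃ (b : Module.Basis (Fin 2) A ρ.V) (a₁ a₂ : A),
      residue A a₁ = α ∧ residue A a₂ = β ∧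
      ρ.ρ φ (b 0) = a₁ • b 0 ∧ ρ.ρ φ (b 1) = a₂ • b 1 ∧
      ∀ g ∈ P.decompositionSubgroup ℚ, ∃ x y : A,
        ρ.ρ g (b 0) = x • b 0 ∧ ρ.ρ g (b 1) = y • b 1

end Fermat.Agent.S59.TWGal
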