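/-
S59, package TW-GAL, second interface file (helper14): the characters on inertia (G2), the
translation from the residual representation (RES) and the unramified quotient (G3).
-/
import Fermat.Agent.S59.TWGal.Defs

set_option autoImplicit false

open Polynomial IsLocalRing

namespace Fermat.Agent.S59.TWGal

section defs

variable {A : Type} [CommRing A] [IsLocalRing A]

/-- The decomposition group at `P` acts diagonally in the basis `b`. -/
def DiagOn (ρ : GaloisRepAdic A) (P : ValuationSubring Qb) (b : Module.Basis (Fin 2) A ρ.V) :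
    Prop :=
  ∀ g ∈ P.decompositionSubgroup ℚ, ∃ x y : A, ρ.ρ g (b 0) = x • b 0 ∧ ρ.ρ g (b 1) = y • b 1

/-- The diagonal entries of `ρ(g)` in the basis `b` (the two characters when `DiagOn`). -/
noncomputable def chi (ρ : GaloisRepAdic A) (b : Module.Basis (Fin 2) A ρ.V) (i : Fin 2)
    (g : GQ) : A :=
  b.repr (ρ.ρ g (b i)) i

/-- Inertia at `P` acts trivially modulo the maximal ideal. -/
def InertiaTrivMod (ρ : GaloisRepAdic A) (P : ValuationSubring Qb) : Prop :=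
  ∀ σ ∈ P.inertiaSubgroupIn ℚ, ∀ v : ρ.V,
    ρ.ρ σ v - v ∈ maximalIdeal A • (⊤ : Submodule A ρ.V)

end defs

/-- **RES**: the hypotheses of `Stmt_G1` from the residual representation. -/
def Stmt_RES : Prop :=
  ∀ (A : Type) [CommRing A] [IsLocalRing A] (ρ : GaloisRepAdic A),
    (∀ (σ : GQ), ρ.residual.ρ σ = 1 →
      ∀ v : ρ.V, ρ.ρ σ v - v ∈ maximalIdeal A • (⊤ : Submodule A ρ.V)) ∧
    (∀ (σ : GQ), LinearMap.charpoly (ρ.residual.ρ σ) =
      (LinearMap.charpoly (ρ.ρ σ)).map (residue A))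

/-- **G2a**: the two characters have order dividing `q - 1` on inertia. -/
def Stmt_G2a : Prop :=
  ∀ (A : Type) [CommRing A] [IsLocalRing A] [IsNoetherianRing A]
    (p : ℕ), p.Prime → (p : A) ∈ maximalIdeal A →
  ∀ (ρ : GaloisRepAdic A) (q : ℕ), q.Prime → q ≠ p →
  ∀ (P : ValuationSubring Qb), P.LiesOverPrime q → InertiaTrivMod ρ P →
  ∀ (φ : GQ), P.IsFrobeniusAt φ q →
  ∀ (b : Module.Basis (Fin 2) A ρ.V), DiagOn ρ P b →
    ∀ σ ∈ P.inertiaSubgroupIn ℚ, ∀ i : Fin 2, chi ρ b i σ ^ (q - 1) = 1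

/-- **G2b**: the image of inertia under the pair of characters is cyclic: one element `σ₀` of the
inertia group generates it. -/
def Stmt_G2b : Prop :=
  ∀ (A : Type) [CommRing A] [IsLocalRing A] [IsNoetherianRing A]
    (p : ℕ), p.Prime → (p : A) ∈ maximalIdeal A →
  ∀ (ρ : GaloisRepAdic A) (q : ℕ), q.Prime → q ≠ p →
  ∀ (P : ValuationSubring Qb), P.LiesOverPrime q → InertiaTrivMod ρ P →
  ∀ (φ : GQ), P.IsFrobeniusAt φ q →
  ∀ (b : Module.Basis (Fin 2) A ρ.V), DiagOn ρ P b →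
    ∃ σ₀ ∈ P.inertiaSubgroupIn ℚ, ∀ σ ∈ P.inertiaSubgroupIn ℚ, ∃ j : ℕ,
      ∀ i : Fin 2, chi ρ b i σ = chi ρ b i σ₀ ^ j

/-- **G3**: a base change along a local homomorphism is unramified at `P` iff the homomorphism
kills `χ_i(σ₀) - 1`, `σ₀` a generator as in G2b. -/
def Stmt_G3 : Prop :=
  ∀ (A : Type) [CommRing A] [IsLocalRing A] (ρ : GaloisRepAdic A)
    (P : ValuationSubring Qb) (b : Module.Basis (Fin 2) A ρ.V), DiagOn ρ P b →
  ∀ σ₀ ∈ P.inertiaSubgroupIn ℚ,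
    (∀ σ ∈ P.inertiaSubgroupIn ℚ, ∃ j : ℕ, ∀ i : Fin 2, chi ρ b i σ = chi ρ b i σ₀ ^ j) →
  ∀ (B : Type) [CommRing B] [IsLocalRing B] (π : A →+* B) (hπ : IsLocalHom π),
    (∀ σ ∈ P.inertiaSubgroupIn ℚ, (ρ.baseChangeAlong π hπ).ρ σ = 1) ↔
      (π (chi ρ b 0 σ₀) = 1 ∧ π (chi ρ b 1 σ₀) = 1)

end Fermat.Agent.S59.TWGal
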