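/-
S59 package TW-GAL, assembly of G1 (helper14):
`Stmt_MatUnip → Stmt_MatDiag → Stmt_EIG → Stmt_TAME → Stmt_G1`.
-/
import Fermat.Agent.S59.TWGal.Defs

set_option autoImplicit false

open Polynomial IsLocalRing

namespace Fermat.Agent.S59.TWGal

/-! ### Matrices of endomorphisms modulo an ideal -/

section mat

variable {A : Type} [CommRing A] {V : Type} [AddCommGroup V] [Module A V]
  (b : Module.Basis (Fin 2) A V)

/-- The coordinates of an element of `J • ⊤` lie in `J`. -/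
lemma repr_mem_of_mem_smul_top (J : Ideal A) {x : V} (hx : x ∈ J • (⊤ : Submodule A V))
    (i : Fin 2) : b.repr x i ∈ J := by
  refine Submodule.smul_induction_on hx ?_ ?_
  · intro a ha v _
    rw [map_smul, Finsupp.smul_apply, smul_eq_mul]
    exact J.mul_mem_right _ ha
  · intro x y hx hy
    rw [map_add, Finsupp.add_apply]
    exact J.add_mem hx hy

/-- The matrix of an endomorphism. -/
noncomputable abbrev mat (f : Module.End A V) : Matrix (Fin 2) (Fin 2) A :=
  LinearMap.toMatrixAlgEquiv b f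

lemma mat_apply (f : Module.End A V) (i j : Fin 2) : mat b f i j = b.repr (f (b j)) i :=
  LinearMap.toMatrixAlgEquiv_apply b f i j

lemma mat_sub_one_mem (J : Ideal A) (f : Module.End A V)
    (h : ∀ v, f v - v ∈ J • (⊤ : Submodule A V)) (i j : Fin 2) : (mat b f - 1) i j ∈ J := by
  have e : mat b f - 1 = mat b (f - 1) := by
    rw [mat, mat, map_sub, map_one]
  rw [e, mat_apply]
  exact repr_mem_of_mem_smul_top b J (h (b j)) i

lemma apply_eq_of_mat (f : Module.End A V) (j : Fin 2) :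
    f (b j) = mat b f 0 j • b 0 + mat b f 1 j • b 1 := by
  conv_lhs => rw [← b.sum_repr (f (b j))]
  rw [Fin.sum_univ_two, mat_apply, mat_apply]

/-- Reduction of matrices modulo an ideal. -/
noncomputable abbrev red (J : Ideal A) :
    Matrix (Fin 2) (Fin 2) A →+* Matrix (Fin 2) (Fin 2) (A ⧸ J) :=
  (Ideal.Quotient.mk J).mapMatrix

lemma red_eq_one_iff (J : Ideal A) (Y : Matrix (Fin 2) (Fin 2) A) :
    red J Y = 1 ↔ ∀ i j, (Y - 1) i j ∈ J := by
  constructor
  · intro h i j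
    have h1 : red J (Y - 1) = 0 := by rw [map_sub, h, map_one, sub_self]
    have h2 := congrFun (congrFun h1 i) j
    rw [RingHom.mapMatrix_apply, Matrix.map_apply, Matrix.zero_apply,
      Ideal.Quotient.eq_zero_iff_mem] at h2
    exact h2
  · intro h
    have h1 : red J (Y - 1) = 0 := by
      ext i j
      rw [RingHom.mapMatrix_apply, Matrix.map_apply, Matrix.zero_apply,
        Ideal.Quotient.eq_zero_iff_mem]
      exact h i j
    rw [map_sub, map_one, sub_eq_zero] at h1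
    exact h1

lemma red_apply_eq_zero_iff (J : Ideal A) (Y : Matrix (Fin 2) (Fin 2) A) (i j : Fin 2) :
    red J Y i j = 0 ↔ Y i j ∈ J := by
  rw [RingHom.mapMatrix_apply, Matrix.map_apply, Ideal.Quotient.eq_zero_iff_mem]

/-- Diagonal `2 × 2` matrices. -/
def IsDiag {R : Type} [CommRing R] (X : Matrix (Fin 2) (Fin 2) R) : Prop :=
  X 0 1 = 0 ∧ X 1 0 = 0

lemma IsDiag.one {R : Type} [CommRing R] : IsDiag (1 : Matrix (Fin 2) (Fin 2) R) := by
  constructor <;> simp

lemma IsDiag.mul {R : Type} [CommRing R] {X Y : Matrix (Fin 2) (Fin 2) R} (hX : IsDiag X)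
    (hY : IsDiag Y) : IsDiag (X * Y) := by
  constructor
  · rw [Matrix.mul_apply, Fin.sum_univ_two, hX.1, hY.1]; simp
  · rw [Matrix.mul_apply, Fin.sum_univ_two, hX.2, hY.2]; simp

lemma IsDiag.pow {R : Type} [CommRing R] {X : Matrix (Fin 2) (Fin 2) R} (hX : IsDiag X)
    (n : ℕ) : IsDiag (X ^ n) := by
  induction n with
  | zero => rw [pow_zero]; exact IsDiag.one
  | succ n ih => rw [pow_succ]; exact ih.mul hX

lemma IsDiag.diagonal {R : Type} [CommRing R] (a c : R) :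
    IsDiag (Matrix.diagonal ![a, c]) := by
  constructor <;> simp

end mat

/-! ### The assembly -/

/-- **G1** from the leaves. -/
theorem stmt_G1_of (hMU : Stmt_MatUnip) (hMD : Stmt_MatDiag) (hEIG : Stmt_EIG)
    (hTAME : Stmt_TAME) : Stmt_G1 := by
  intro A _ _ _ _ p hp hpA ρ q hq hqA P hP hI φ hφ α β hαβ hchar
  -- `q ≠ p`
  have hqp : q ≠ p := by
    rintro rfl
    have h1 : (q : A) - ((q : A) - 1) ∈ maximalIdeal A := (maximalIdeal A).sub_mem hpA hqA
    rw [sub_sub_cancel] at h1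
    exact (Ideal.ne_top_iff_one _).1 (maximalIdeal.isMaximal A).ne_top h1
  have hcop : ∀ e : ℕ, (q ^ e).Coprime p :=
    fun e => Nat.Coprime.pow_left e ((Nat.coprime_primes hq hp).2 hqp)
  -- the eigenbasis
  have : HenselianLocalRing A :=
    ⟨fun f hf a₀ h₁ h₂ => HenselianRing.is_henselian f hf a₀ h₁ (h₂.map _)⟩
  obtain ⟨b, a₁, a₂, ha₁, ha₂, hb0, hb1⟩ := hEIG A ρ.V ρ.finrank_eq (ρ.ρ φ) α β hαβ hchar
  have hqres : residue A (q : A) = 1 := by
    have : residue A ((q : A) - 1) = 0 := (residue_eq_zero_iff _).2 hqA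
    rw [map_sub, map_one, sub_eq_zero] at this
    exact this
  have hu₁ : IsUnit (a₁ - (q : A) * a₂) := by
    rw [← isUnit_map_iff (residue A), map_sub, map_mul, hqres, one_mul, ha₁, ha₂]
    exact (sub_ne_zero.2 hαβ).isUnit
  have hu₂ : IsUnit (a₂ - (q : A) * a₁) := by
    rw [← isUnit_map_iff (residue A), map_sub, map_mul, hqres, one_mul, ha₁, ha₂]
    exact (sub_ne_zero.2 hαβ.symm).isUnit
  -- the matrix representation
  let μ : GQ →* Matrix (Fin 2) (Fin 2) A :=
    ((LinearMap.toMatrixAlgEquiv b : Module.End A ρ.V ≃ₐ[A] _) : Module.End A ρ.V →* _).comp ρ.ρ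
  have hμ : ∀ g, μ g = mat b (ρ.ρ g) := fun _ => rfl
  have hμφ : μ φ = Matrix.diagonal ![a₁, a₂] := by
    ext i j
    rw [hμ, mat_apply]
    fin_cases j
    · show b.repr (ρ.ρ φ (b 0)) i = _
      rw [hb0, map_smul, Module.Basis.repr_self]
      fin_cases i <;> simp
    · show b.repr (ρ.ρ φ (b 1)) i = _
      rw [hb1, map_smul, Module.Basis.repr_self]
      fin_cases i <;> simp
  -- the key claim: `μ g` is diagonal modulo `𝔪 ^ N` for `g ∈ D_P`
  have key : ∀ N : ℕ, ∀ g ∈ P.decompositionSubgroup ℚ,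
      IsDiag (red (maximalIdeal A ^ N) (μ g)) := by
    intro N g hg
    obtain ⟨L, hL, hcont⟩ := ρ.isAdicContinuous N
    -- elements fixing `L` are trivial modulo `𝔪 ^ N`
    have hfix : ∀ u ∈ L.fixingSubgroup, red (maximalIdeal A ^ N) (μ u) = 1 := by
      intro u hu
      rw [red_eq_one_iff]
      exact mat_sub_one_mem b _ _
        (hcont u (fun x hx => (IntermediateField.mem_fixingSubgroup_iff L u).1 hu x hx))
    obtain ⟨τ₀, hτ₀, hcyc, ⟨e₀, hconj⟩, hdec⟩ := hTAME q hq P hP φ hφ L hL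
    -- inertia elements of `q`-power order modulo `G_L` are trivial modulo `𝔪 ^ N`
    have hwild : ∀ w ∈ P.inertiaSubgroupIn ℚ, ∀ e : ℕ, w ^ (q ^ e) ∈ L.fixingSubgroup →
        red (maximalIdeal A ^ N) (μ w) = 1 := by
      intro w hw e hwe
      rw [red_eq_one_iff]
      refine hMU A (maximalIdeal A) p (q ^ e) N hpA (hcop e) (μ w) ?_ ?_
      · exact mat_sub_one_mem b _ _ (hI w hw)
      · rw [← map_pow, ← red_eq_one_iff]
        exact hfix _ hwe
    have hφD : φ ∈ P.decompositionSubgroup ℚ := hφ.mem_decompositionSubgroup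
    have hnormal : ∀ {τ σ : GQ}, τ ∈ P.decompositionSubgroup ℚ → σ ∈ P.inertiaSubgroupIn ℚ →
        τ * σ * τ⁻¹ ∈ P.inertiaSubgroupIn ℚ := by
      intro τ σ hτ hσ
      obtain ⟨s, hs, rfl⟩ := hσ
      refine ⟨⟨τ, hτ⟩ * s * ⟨τ, hτ⟩⁻¹, ?_, rfl⟩
      have hn : (P.inertiaSubgroup ℚ).Normal := by
        unfold ValuationSubring.inertiaSubgroup
        infer_instance
      exact hn.conj_mem s hs ⟨τ, hτ⟩
    -- the tame relation modulo `𝔪 ^ N`
    have hw₀ : (τ₀ ^ q)⁻¹ * (φ * τ₀ * φ⁻¹) ∈ P.inertiaSubgroupIn ℚ :=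
      mul_mem (inv_mem (pow_mem hτ₀ q)) (hnormal hφD hτ₀)
    have hrel : red (maximalIdeal A ^ N) (μ φ) * red (maximalIdeal A ^ N) (μ τ₀) =
        red (maximalIdeal A ^ N) (μ τ₀) ^ q * red (maximalIdeal A ^ N) (μ φ) := by
      have h1 := hwild _ hw₀ e₀ hconj
      have h2 : φ * τ₀ = τ₀ ^ q * ((τ₀ ^ q)⁻¹ * (φ * τ₀ * φ⁻¹)) * φ := by group
      calc red (maximalIdeal A ^ N) (μ φ) * red (maximalIdeal A ^ N) (μ τ₀)
          = red (maximalIdeal A ^ N) (μ (φ * τ₀)) := by rw [map_mul, map_mul]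
        _ = red (maximalIdeal A ^ N) (μ (τ₀ ^ q * ((τ₀ ^ q)⁻¹ * (φ * τ₀ * φ⁻¹)) * φ)) := by
            rw [← h2]
        _ = red (maximalIdeal A ^ N) (μ τ₀) ^ q * red (maximalIdeal A ^ N) (μ φ) := by
            rw [map_mul, map_mul, map_mul, map_mul, h1, mul_one, map_pow, map_pow]
    -- `μ τ₀` is diagonal modulo `𝔪 ^ N`
    have hτdiag : IsDiag (red (maximalIdeal A ^ N) (μ τ₀)) := by
      have h1 := hMD A (maximalIdeal A) N q a₁ a₂ hu₁ hu₂ (μ τ₀)
        (mat_sub_one_mem b _ _ (hI τ₀ hτ₀)) (by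
          intro i j
          rw [← hμφ, ← red_apply_eq_zero_iff, map_sub, map_mul, map_mul, map_pow, hrel, sub_self,
            Matrix.zero_apply])
      exact ⟨(red_apply_eq_zero_iff _ _ _ _).2 h1.1, (red_apply_eq_zero_iff _ _ _ _).2 h1.2⟩
    have hφdiag : IsDiag (red (maximalIdeal A ^ N) (μ φ)) := by
      rw [hμφ]
      constructor
      · rw [red_apply_eq_zero_iff]; simp
      · rw [red_apply_eq_zero_iff]; simp
    -- inertia
    have hIdiag : ∀ σ ∈ P.inertiaSubgroupIn ℚ, IsDiag (red (maximalIdeal A ^ N) (μ σ)) := by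
      intro σ hσ
      obtain ⟨j, e, hje⟩ := hcyc σ hσ
      have h1 := hwild _ (mul_mem (inv_mem (pow_mem hτ₀ j)) hσ) e hje
      have h2 : σ = τ₀ ^ j * ((τ₀ ^ j)⁻¹ * σ) := by group
      rw [h2, map_mul, map_mul, h1, mul_one, map_pow, map_pow]
      exact hτdiag.pow j
    -- decomposition group
    obtain ⟨n, σ, hσ, hu⟩ := hdec g hg
    have h2 : g = φ ^ n * σ * ((φ ^ n * σ)⁻¹ * g) := by group
    rw [h2, map_mul, map_mul, map_mul, map_mul, hfix _ hu, mul_one, map_pow, map_pow]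
    exact (hφdiag.pow n).mul (hIdiag σ hσ)
  -- Krull
  have hkrull : ∀ x : A, (∀ N : ℕ, x ∈ maximalIdeal A ^ N) → x = 0 := by
    intro x hx
    have h := Ideal.iInf_pow_eq_bot_of_isLocalRing (maximalIdeal A)
      (maximalIdeal.isMaximal A).ne_top
    have hmem : x ∈ ⨅ i : ℕ, maximalIdeal A ^ i := by
      rw [Ideal.mem_iInf]; exact hx
    rw [h] at hmem
    exact (Submodule.mem_bot A).1 hmem
  refine ⟨b, a₁, a₂, ha₁, ha₂, hb0, hb1, fun g hg => ?_⟩
  have h01 : μ g 0 1 = 0 :=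
    hkrull _ fun N => (red_apply_eq_zero_iff _ _ _ _).1 (key N g hg).1
  have h10 : μ g 1 0 = 0 :=
    hkrull _ fun N => (red_apply_eq_zero_iff _ _ _ _).1 (key N g hg).2
  refine ⟨μ g 0 0, μ g 1 1, ?_, ?_⟩
  · rw [apply_eq_of_mat b (ρ.ρ g) 0, ← hμ, h10, zero_smul, add_zero]
  · rw [apply_eq_of_mat b (ρ.ρ g) 1, ← hμ, h01, zero_smul, zero_add]

end Fermat.Agent.S59.TWGal
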