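import Fermat.Agent.S59.TWGal.H01_MatUnip

/-!
# S59, package TW-GAL, leaf MAT-D (helper1): `Stmt_MatDiag`

The tame relation `F Y = Y ^ q F` modulo `I ^ N`, `F = diag(a, b)`, `Y ≡ 1 mod I`, with
`a - q b` and `b - q a` units, forces the off-diagonal entries of `Y` into `I ^ N`.

Proof: induction on `k ≤ N`.  If `Y i j ∈ I ^ k` (`i ≠ j`) then `(Y ^ m) i j ≡ m Y i j` modulo
`I ^ (k + 1)` (`pow_offdiag`, induction on `m`), and the `(i, j)` entry of the relation gives
`(d i - q d j) Y i j ∈ I ^ (k + 1)`.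
-/

set_option autoImplicit false

namespace Fermat.Agent.S59.TWGal.H01

variable {A : Type*} [CommRing A]

/-- The `(i, j)` entry of a product of `2 × 2` matrices, `i ≠ j`. -/
theorem mul_apply_offdiag (M M' : Matrix (Fin 2) (Fin 2) A) {i j : Fin 2} (hij : i ≠ j) :
    (M * M') i j = M i i * M' i j + M i j * M' j j := by
  rw [Matrix.mul_apply, Fin.sum_univ_two]
  fin_cases i <;> fin_cases j
  · exact absurd rfl hij
  · rfl
  · exact add_comm _ _
  · exact absurd rfl hij

/-- If `Y ≡ 1 mod I` and `Y i j ∈ I ^ k`, `i ≠ j`, then `(Y ^ m) i j ≡ m Y i j` modulo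
`I ^ (k + 1)`. -/
theorem pow_offdiag {I : Ideal A} {Y : Matrix (Fin 2) (Fin 2) A} (hY : EntriesIn I (Y - 1))
    {k : ℕ} {i j : Fin 2} (hij : i ≠ j) (h : Y i j ∈ I ^ k) (m : ℕ) :
    (Y ^ m) i j - (m : A) * Y i j ∈ I ^ (k + 1) := by
  induction m with
  | zero =>
    rw [pow_zero, Matrix.one_apply_ne hij, Nat.cast_zero, zero_mul, sub_zero]
    exact (I ^ (k + 1)).zero_mem
  | succ m ih =>
    have h1 : (Y ^ m) i i - 1 ∈ I := by
      have := entriesIn_pow_sub_one hY m i i
      rwa [Matrix.sub_apply, Matrix.one_apply_eq] at this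
    have h2 : Y j j - 1 ∈ I := by
      have := hY j j
      rwa [Matrix.sub_apply, Matrix.one_apply_eq] at this
    have e : (Y ^ (m + 1)) i j - ((m + 1 : ℕ) : A) * Y i j
        = ((Y ^ m) i i - 1) * Y i j + ((Y ^ m) i j - (m : A) * Y i j) * Y j j
          + (m : A) * (Y i j * (Y j j - 1)) := by
      rw [pow_succ, mul_apply_offdiag _ _ hij]
      push_cast
      ring
    rw [e]
    refine (I ^ (k + 1)).add_mem ((I ^ (k + 1)).add_mem ?_ ?_) ?_
    · rw [pow_succ']
      exact Ideal.mul_mem_mul h1 h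
    · exact (I ^ (k + 1)).mul_mem_right _ ih
    · refine (I ^ (k + 1)).mul_mem_left _ ?_
      rw [pow_succ]
      exact Ideal.mul_mem_mul h h2

/-- The off-diagonal entry `(i, j)`, for a general diagonal matrix. -/
theorem offdiag_mem {I : Ideal A} {N q : ℕ} {d : Fin 2 → A}
    {Y : Matrix (Fin 2) (Fin 2) A} (hY : EntriesIn I (Y - 1))
    (hrel : EntriesIn (I ^ N) (Matrix.diagonal d * Y - Y ^ q * Matrix.diagonal d))
    {i j : Fin 2} (hij : i ≠ j) (hu : IsUnit (d i - (q : A) * d j)) : Y i j ∈ I ^ N := by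
  have key : ∀ k : ℕ, k ≤ N → Y i j ∈ I ^ k := by
    intro k
    induction k with
    | zero =>
      intro _
      rw [pow_zero, Ideal.one_eq_top]
      exact Submodule.mem_top
    | succ k ih =>
      intro hk
      have hX := ih (by omega)
      have h1 : d i * Y i j - (Y ^ q) i j * d j ∈ I ^ (k + 1) := by
        have := Ideal.pow_le_pow_right hk (hrel i j)
        rwa [Matrix.sub_apply, Matrix.diagonal_mul, Matrix.mul_diagonal] at this
      have h2 := pow_offdiag hY hij hX q
      have h3 : (d i - (q : A) * d j) * Y i j ∈ I ^ (k + 1) := by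
        have e : (d i - (q : A) * d j) * Y i j
            = (d i * Y i j - (Y ^ q) i j * d j) + d j * ((Y ^ q) i j - (q : A) * Y i j) := by
          ring
        rw [e]
        exact (I ^ (k + 1)).add_mem h1 ((I ^ (k + 1)).mul_mem_left _ h2)
      obtain ⟨w, hw⟩ := hu
      have e : Y i j = (↑w⁻¹ : A) * ((d i - (q : A) * d j) * Y i j) := by
        rw [← hw, ← mul_assoc, Units.inv_mul, one_mul]
      rw [e]
      exact (I ^ (k + 1)).mul_mem_left _ h3
  exact key N le_rfl

/-- **MAT-D.** -/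
theorem stmt_MatDiag : Stmt_MatDiag := by
  intro A _ I N q a b hab hba Y hY hrel
  have hY' : EntriesIn I (Y - 1) := hY
  have hrel' : EntriesIn (I ^ N) (Matrix.diagonal ![a, b] * Y - Y ^ q * Matrix.diagonal ![a, b]) :=
    hrel
  constructor
  · exact offdiag_mem hY' hrel' (i := 0) (j := 1) (by decide) (by simpa using hab)
  · exact offdiag_mem hY' hrel' (i := 1) (j := 0) (by decide) (by simpa using hba)

end Fermat.Agent.S59.TWGal.H01
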