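import Fermat.Agent.S59.TWGal.Defs

/-!
# S59, package TW-GAL, leaf MAT-U (helper1): `Stmt_MatUnip`

`1 + M₂(I)` has no prime-to-`p` torsion modulo `I ^ N` (`p ∈ I`): if `Y ≡ 1 mod I` and
`Y ^ m ≡ 1 mod I ^ N` with `m` prime to `p`, then `Y ≡ 1 mod I ^ N`.

Proof: induction on `k ≤ N`; if `X = Y - 1` has entries in `I ^ k`, `k ≥ 1`, then
`Y ^ m - 1 - m X` has entries in `I ^ (2 k) ⊆ I ^ (k + 1)`, hence `m X` has entries in
`I ^ (k + 1)`; so does `p X`, and `u m + v p = 1`.

Reusable: `EntriesIn J M` (all entries of `M` in the ideal `J`) with its calculus, and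
`entriesIn_pow_sub` (`Y ^ m - 1 - m (Y - 1)` has entries in `J * J`).
-/

set_option autoImplicit false
set_option linter.unusedSectionVars false

namespace Fermat.Agent.S59.TWGal.H01

variable {A : Type*} [CommRing A] {n : Type*} [Fintype n] [DecidableEq n]

/-- All entries of the matrix `M` lie in the ideal `J`. -/
def EntriesIn (J : Ideal A) (M : Matrix n n A) : Prop := ∀ i j, M i j ∈ J

theorem entriesIn_zero (J : Ideal A) : EntriesIn J (0 : Matrix n n A) := fun _ _ => J.zero_mem

theorem EntriesIn.add {J : Ideal A} {M M' : Matrix n n A} (h : EntriesIn J M)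
    (h' : EntriesIn J M') : EntriesIn J (M + M') := fun i j => by
  rw [Matrix.add_apply]
  exact J.add_mem (h i j) (h' i j)

theorem EntriesIn.sub {J : Ideal A} {M M' : Matrix n n A} (h : EntriesIn J M)
    (h' : EntriesIn J M') : EntriesIn J (M - M') := fun i j => by
  rw [Matrix.sub_apply]
  exact J.sub_mem (h i j) (h' i j)

theorem EntriesIn.mono {J J' : Ideal A} (hle : J ≤ J') {M : Matrix n n A} (h : EntriesIn J M) :
    EntriesIn J' M := fun i j => hle (h i j)

theorem EntriesIn.mul_right {J : Ideal A} {M : Matrix n n A} (h : EntriesIn J M)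
    (B : Matrix n n A) : EntriesIn J (M * B) := fun i j => by
  rw [Matrix.mul_apply]
  exact J.sum_mem fun k _ => J.mul_mem_right _ (h i k)

theorem EntriesIn.mul_left {J : Ideal A} {M : Matrix n n A} (h : EntriesIn J M)
    (B : Matrix n n A) : EntriesIn J (B * M) := fun i j => by
  rw [Matrix.mul_apply]
  exact J.sum_mem fun k _ => J.mul_mem_left _ (h k j)

theorem EntriesIn.mul {J J' : Ideal A} {M M' : Matrix n n A} (h : EntriesIn J M)
    (h' : EntriesIn J' M') : EntriesIn (J * J') (M * M') := fun i j => by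
  rw [Matrix.mul_apply]
  exact (J * J').sum_mem fun k _ => Ideal.mul_mem_mul (h i k) (h' k j)

theorem EntriesIn.nsmul {J : Ideal A} {M : Matrix n n A} (h : EntriesIn J M) (m : ℕ) :
    EntriesIn J (m • M) := fun i j => by
  rw [Matrix.smul_apply, nsmul_eq_mul]
  exact J.mul_mem_left _ (h i j)

/-- If `Y ≡ 1 mod J`, then `Y ^ m ≡ 1 mod J`. -/
theorem entriesIn_pow_sub_one {J : Ideal A} {Y : Matrix n n A} (h : EntriesIn J (Y - 1))
    (m : ℕ) : EntriesIn J (Y ^ m - 1) := by
  induction m with
  | zero =>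
    rw [pow_zero, sub_self]
    exact entriesIn_zero J
  | succ m ih =>
    have e : Y ^ (m + 1) - 1 = (Y ^ m - 1) * Y + (Y - 1) := by
      rw [pow_succ]
      noncomm_ring
    rw [e]
    exact (ih.mul_right Y).add h

/-- If `Y ≡ 1 mod J`, then `Y ^ m ≡ 1 + m (Y - 1) mod J ^ 2`. -/
theorem entriesIn_pow_sub {J : Ideal A} {Y : Matrix n n A} (h : EntriesIn J (Y - 1)) (m : ℕ) :
    EntriesIn (J * J) (Y ^ m - 1 - m • (Y - 1)) := by
  induction m with
  | zero =>
    rw [pow_zero, sub_self, zero_smul, sub_zero]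
    exact entriesIn_zero _
  | succ m ih =>
    have e : Y ^ (m + 1) - 1 - (m + 1) • (Y - 1)
        = (Y ^ m - 1 - m • (Y - 1)) * Y + (m • (Y - 1)) * (Y - 1) := by
      rw [pow_succ, succ_nsmul, smul_mul_assoc]
      have e1 : (m • (Y - 1)) * Y = m • ((Y - 1) * Y) := smul_mul_assoc _ _ _
      rw [sub_mul, sub_mul, e1, one_mul]
      have e2 : (Y - 1) * Y = (Y - 1) * (Y - 1) + (Y - 1) := by noncomm_ring
      rw [e2, smul_add]
      abel
    rw [e]
    exact (ih.mul_right Y).add ((h.nsmul m).mul h)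

/-- **MAT-U.** -/
theorem stmt_MatUnip : Stmt_MatUnip := by
  intro A _ I p m N hp hmp Y hY hYm
  have hY' : EntriesIn I (Y - 1) := hY
  have hYm' : EntriesIn (I ^ N) (Y ^ m - 1) := hYm
  obtain ⟨u, v, huv⟩ := (Nat.isCoprime_iff_coprime.mpr hmp)
  have key : ∀ k : ℕ, k ≤ N → EntriesIn (I ^ k) (Y - 1) := by
    intro k
    induction k with
    | zero =>
      intro _ i j
      rw [pow_zero, Ideal.one_eq_top]
      exact Submodule.mem_top
    | succ k ih =>
      intro hk
      have hX := ih (by omega)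
      rcases Nat.eq_zero_or_pos k with rfl | hkpos
      · rw [zero_add, pow_one]
        exact hY'
      -- `m X` has entries in `I ^ (k + 1)`
      have h1 : EntriesIn (I ^ (k + 1)) (Y ^ m - 1 - m • (Y - 1)) := by
        refine (entriesIn_pow_sub hX m).mono ?_
        rw [← pow_add]
        exact Ideal.pow_le_pow_right (by omega)
      have h2 : EntriesIn (I ^ (k + 1)) (Y ^ m - 1) := hYm'.mono (Ideal.pow_le_pow_right hk)
      have h3 : EntriesIn (I ^ (k + 1)) (m • (Y - 1)) := by
        have := h2.sub h1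
        rwa [sub_sub_cancel] at this
      intro i j
      have h4 : (m : A) * (Y - 1) i j ∈ I ^ (k + 1) := by
        have := h3 i j
        rwa [Matrix.smul_apply, nsmul_eq_mul] at this
      have h5 : (p : A) * (Y - 1) i j ∈ I ^ (k + 1) := by
        rw [pow_succ']
        exact Ideal.mul_mem_mul hp (hX i j)
      have h6 : (Y - 1) i j = (u : A) * ((m : A) * (Y - 1) i j) + (v : A) * ((p : A) * (Y - 1) i j) := by
        have := congrArg (Int.cast : ℤ → A) huv
        push_cast at this
        linear_combination (-(Y - 1) i j) * this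
      rw [h6]
      exact (I ^ (k + 1)).add_mem ((I ^ (k + 1)).mul_mem_left _ h4)
        ((I ^ (k + 1)).mul_mem_left _ h5)
  exact key N le_rfl

end Fermat.Agent.S59.TWGal.H01
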