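import Fermat.Agent.S59.TWGal.Defs
import Fermat.Agent.S56.H9_Place
import Fermat.Agent.S56.H9_TameChar
import Fermat.Agent.S56.H9_Frob
import Fermat.Agent.Lib.InertiaLift
import Fermat.Agent.Lib.InertiaBridge

/-!
# S59, package TW-GAL, leaf TAME (helper59): `Stmt_TAME`

Tame inertia at finite level.  `F'` = normal closure of `F`, `Γ = Gal(F'/ℚ)` acting on
`B = 𝓞 F'`, `𝔓 = primeAt P F'`; helper9's toolkit (`exists_generator_mod_wild`, `conj_mem_wild`,
`smul_eq_of_mem_wild_of_coprime`) and the lifting of inertia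
(`Lib.InertiaLift.exists_mem_inertiaSubgroupIn_eqOn`).
-/

set_option autoImplicit false
set_option linter.unusedSectionVars false
set_option linter.style.haveILetI false

namespace Fermat.Agent.S59.TWGal.H59

open NumberField Fermat.Agent.S56.H9 Fermat.Agent.S59.TWGal

section galois

variable (F : IntermediateField ℚ Qb) [NumberField F]

instance faithful_gal_int' : FaithfulSMul (F ≃ₐ[ℚ] F) (𝓞 F) := by
  refine ⟨fun {σ τ} h => ?_⟩
  apply AlgEquiv.ext
  intro y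
  obtain ⟨a, b, hb, rfl⟩ := IsFractionRing.div_surjective (A := 𝓞 F) y
  have ha := congrArg (fun z : 𝓞 F => (z : F)) (h a)
  have hb' := congrArg (fun z : 𝓞 F => (z : F)) (h b)
  have e1 : σ (algebraMap (𝓞 F) F a) = τ (algebraMap (𝓞 F) F a) := ha
  have e2 : σ (algebraMap (𝓞 F) F b) = τ (algebraMap (𝓞 F) F b) := hb'
  rw [map_div₀, map_div₀, e1, e2]

variable [Normal ℚ F]

lemma intIncl_restrict_smul (τ : GQ) (x : 𝓞 F) :
    intIncl F ((AlgEquiv.restrictNormalHom F τ) • x) = τ (intIncl F x) :=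
  AlgEquiv.restrictNormal_commutes τ F (x : F)

end galois

/-- The Frobenius condition in terms of the valuation. -/
theorem valuation_frob_lt_one (P : ValuationSubring Qb) {φ : GQ} {q : ℕ}
    (hφ : P.IsFrobeniusAt φ q) (a : Qb) (ha : a ∈ P) : P.valuation (φ a - a ^ q) < 1 := by
  obtain ⟨hdec, h⟩ := hφ
  have h1 := h (IsLocalRing.residue P ⟨a, ha⟩)
  rw [← IsLocalRing.ResidueField.residue_smul, ← map_pow, ← sub_eq_zero, ← map_sub,
    IsLocalRing.residue_eq_zero_iff, ← ValuationSubring.coe_mem_nonunits_iff,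
    P.mem_nonunits_iff] at h1
  exact h1

/-- **TAME**: `Stmt_TAME` of `Fermat/Agent/S59/TWGal/Defs.lean`. -/
theorem stmt_TAME : Stmt_TAME := by
  intro q hq P hP φ hφ F hFfd
  classical
  haveI := hFfd
  haveI : Fact q.Prime := ⟨hq⟩
  haveI hnQ : Normal ℚ Qb := (Fermat.Agent.Lib.InertiaLift.qbar_isGalois').to_normal
  -- the normal closure
  set F' : IntermediateField ℚ Qb := IntermediateField.normalClosure ℚ F Qb with hF'
  haveI hfd' : FiniteDimensional ℚ F' := inferInstance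
  haveI hn' : Normal ℚ F' := normalClosure.normal ℚ F Qb
  have hFF' : F ≤ F' := F.le_normalClosure
  haveI : NumberField F' :=
    { to_charZero := inferInstance, to_finiteDimensional := inferInstance }
  have hq0 : q ≠ 0 := hq.ne_zero
  set 𝔓 : Ideal (𝓞 F') := primeAt P F' with h𝔓def
  haveI : 𝔓.IsMaximal := primeAt_isMaximal _ _ hq0 hP
  haveI : Finite (𝓞 F' ⧸ 𝔓) := finite_quotient_primeAt _ _ hq0 hP
  haveI : CharP (𝓞 F' ⧸ 𝔓) q := charP_quotient_primeAt _ _ hq hP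
  have h𝔓 : 𝔓 ≠ ⊥ := primeAt_ne_bot _ _ hq0 hP
  have h𝔓top : 𝔓 ≠ ⊤ := Ideal.IsPrime.ne_top inferInstance
  have hq𝔓 : (q : 𝓞 F') ∈ 𝔓 := natCast_mem_primeAt P F' hP
  set r : GQ →* (F' ≃ₐ[ℚ] F') := AlgEquiv.restrictNormalHom F' with hr
  -- the kernel
  have hker : ∀ g : GQ, r g = 1 → g ∈ F.fixingSubgroup := by
    intro g hg
    have h1 : g ∈ F'.fixingSubgroup := by
      have := (Subgroup.ext_iff.1 (@IntermediateField.restrictNormalHom_ker ℚ Qb _ _ _ F' hn') g)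
      exact this.1 (MonoidHom.mem_ker.mpr hg)
    exact IntermediateField.fixingSubgroup_antitone hFF' h1
  -- stabiliser
  have hstab : ∀ g ∈ P.decompositionSubgroup ℚ, ∀ x : 𝓞 F', r g • x ∈ 𝔓 ↔ x ∈ 𝔓 := by
    intro g hg x
    rw [h𝔓def, mem_primeAt, mem_primeAt, intIncl_restrict_smul]
    exact Fermat.Agent.Lib.InertiaBridge.valuation_map_lt_one_iff _ _ hg _
  have hint : ∀ x : 𝓞 F', intIncl F' x ∈ P := fun x =>
    (P.valuation_le_one_iff _).mp (valuation_intIncl_le_one P F' x)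
  -- inertia
  have hinert : ∀ σ ∈ P.inertiaSubgroupIn ℚ, r σ ∈ 𝔓.inertia (F' ≃ₐ[ℚ] F') := by
    intro σ hσ x
    have h1 := ((Fermat.Agent.Lib.InertiaBridge.mem_inertiaSubgroupIn_iff_forall P σ).mp hσ).2
      (intIncl F' x) (hint x)
    show r σ • x - x ∈ primeAt P F'
    rw [mem_primeAt, map_sub, intIncl_restrict_smul]
    exact h1
  have hIdec : ∀ σ ∈ P.inertiaSubgroupIn ℚ, σ ∈ P.decompositionSubgroup ℚ := fun σ hσ =>
    ((Fermat.Agent.Lib.InertiaBridge.mem_inertiaSubgroupIn_iff_forall P σ).mp hσ).1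
  have hφdec : φ ∈ P.decompositionSubgroup ℚ := hφ.mem_decompositionSubgroup
  -- Frobenius
  have hfrob : ∀ x : 𝓞 F', r φ • x - x ^ q ∈ 𝔓 := by
    intro x
    rw [h𝔓def, mem_primeAt, map_sub, intIncl_restrict_smul, map_pow]
    exact valuation_frob_lt_one P hφ _ (hint x)
  -- wild elements have `q`-power order
  have hwild : ∀ γ ∈ wild 𝔓 (F' ≃ₐ[ℚ] F'), ∃ e : ℕ, γ ^ (q ^ e) = 1 := by
    intro γ hγ
    have hord : orderOf γ ≠ 0 := (orderOf_pos γ).ne'
    obtain ⟨e, n, hn, hen⟩ := Nat.exists_eq_pow_mul_and_not_dvd hord q hq.ne_one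
    refine ⟨e, ?_⟩
    have hcop : n.Coprime q := (Nat.Coprime.symm ((Nat.Prime.coprime_iff_not_dvd hq).2 hn))
    have hpow : ∀ y : 𝓞 F', ((γ ^ q ^ e) ^ n) • y = y := by
      intro y
      rw [← pow_mul, ← hen, pow_orderOf_eq_one, one_smul]
    have htriv := smul_eq_of_mem_wild_of_coprime 𝔓 h𝔓top hq𝔓 (pow_mem hγ (q ^ e)) hcop hpow
    apply FaithfulSMul.eq_of_smul_eq_smul (α := 𝓞 F')
    intro y
    rw [htriv y, one_smul]
  -- the generator of tame inertia
  set J : Subgroup (F' ≃ₐ[ℚ] F') := (P.inertiaSubgroupIn ℚ).map r with hJ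
  have hJle : J ≤ 𝔓.inertia (F' ≃ₐ[ℚ] F') := by
    rintro _ ⟨σ, hσ, rfl⟩
    exact hinert σ hσ
  obtain ⟨τ₀', hτ₀', hcyc⟩ := exists_generator_mod_wild h𝔓 J hJle
  obtain ⟨τ₀, hτ₀, rfl⟩ := hτ₀'
  refine ⟨τ₀, hτ₀, ?_, ?_, ?_⟩
  · -- (a)
    intro σ hσ
    obtain ⟨j, hj⟩ := hcyc (r σ) ⟨σ, hσ, rfl⟩
    obtain ⟨e, he⟩ := hwild _ hj
    refine ⟨j, e, hker _ ?_⟩
    rw [map_pow, map_mul, map_inv, map_pow]
    exact he
  · -- (b)
    have hconj := conj_mem_wild h𝔓 (hstab φ hφdec) hfrob (hinert τ₀ hτ₀)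
    obtain ⟨e, he⟩ := hwild _ hconj
    refine ⟨e, hker _ ?_⟩
    rw [map_pow, map_mul, map_inv, map_pow, map_mul, map_mul, map_inv]
    exact he
  · -- (c)
    intro g hg
    letI : Field (𝓞 F' ⧸ 𝔓) := Ideal.Quotient.field 𝔓
    letI := ZMod.algebra (𝓞 F' ⧸ 𝔓) q
    obtain ⟨a, ha⟩ := (FiniteField.bijective_frobeniusAlgEquivOfAlgebraic_pow (ZMod q)
      (𝓞 F' ⧸ 𝔓)).2 (resAlgEquiv 𝔓 q (r g) (hstab g hg))
    set n : ℕ := (a : ℕ) with hn
    have hgn : ∀ x : 𝓞 F', r g • x - x ^ (q ^ n) ∈ 𝔓 := by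
      intro x
      rw [← Ideal.Quotient.eq, map_pow, ← resAlgEquiv_mk 𝔓 q (r g) (hstab g hg) x, ← ha]
      simp only [AlgEquiv.coe_pow, FiniteField.coe_frobeniusAlgEquivOfAlgebraic_iterate,
        ZMod.card]
      rfl
    have hφn : ∀ m : ℕ, ∀ x : 𝓞 F', (r φ ^ m) • x - x ^ (q ^ m) ∈ 𝔓 := by
      intro m
      induction m with
      | zero => intro x; simp
      | succ m ih =>
        intro x
        have e1 : (r φ ^ (m + 1)) • x - x ^ (q ^ (m + 1))
            = r φ • ((r φ ^ m) • x - x ^ (q ^ m)) + (r φ • (x ^ (q ^ m)) - (x ^ (q ^ m)) ^ q) := by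
          rw [pow_succ', mul_smul, smul_sub, ← pow_mul, ← pow_succ]
          ring
        rw [e1]
        exact Ideal.add_mem _ ((hstab φ hφdec _).mpr (ih x)) (hfrob _)
    set g' : GQ := (φ ^ n)⁻¹ * g with hg'
    have hφndec : φ ^ n ∈ P.decompositionSubgroup ℚ := pow_mem hφdec n
    have hg'I : ∀ x : 𝓞 F', r g' • x - x ∈ 𝔓 := by
      intro x
      have e1 : r g' • x - x = (r (φ ^ n))⁻¹ • (r g • x - r (φ ^ n) • x) := by
        rw [hg', map_mul, map_inv, mul_smul, smul_sub, inv_smul_smul]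
      rw [e1]
      have h2 : r g • x - r (φ ^ n) • x ∈ 𝔓 := by
        have : r g • x - r (φ ^ n) • x
            = (r g • x - x ^ (q ^ n)) - ((r φ ^ n) • x - x ^ (q ^ n)) := by
          rw [map_pow]; ring
        rw [this]
        exact Ideal.sub_mem _ (hgn x) (hφn n x)
      have h3 := (hstab ((φ ^ n)⁻¹) (inv_mem hφndec) (r g • x - r (φ ^ n) • x)).mpr h2
      rwa [map_inv] at h3
    have hlift : ∀ x : Qb, x ∈ F' → IsIntegral ℤ x → g' x - x ∈ P.nonunits := by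
      intro x hx hxi
      have hxi' : IsIntegral ℤ (⟨x, hx⟩ : F') := by
        refine (isIntegral_algebraMap_iff (B := Qb) ?_).1 hxi
        exact (algebraMap F' Qb).injective
      obtain ⟨y, hy⟩ : ∃ y : 𝓞 F', intIncl F' y = x := ⟨⟨⟨x, hx⟩, hxi'⟩, rfl⟩
      have h1 := hg'I y
      rw [h𝔓def, mem_primeAt, map_sub, intIncl_restrict_smul, hy] at h1
      exact (ValuationSubring.mem_nonunits_iff _).2 h1
    obtain ⟨σ, hσ, hσF⟩ := Fermat.Agent.Lib.InertiaLift.exists_mem_inertiaSubgroupIn_eqOn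
      q hq P hP F' g' hlift
    refine ⟨n, σ, hσ, ?_⟩
    have h2 : σ⁻¹ * g' ∈ F'.fixingSubgroup := by
      rw [IntermediateField.mem_fixingSubgroup_iff]
      intro x hx
      show σ⁻¹ (g' x) = x
      rw [← hσF x hx]
      exact σ.symm_apply_apply x
    have h3 : (φ ^ n * σ)⁻¹ * g = σ⁻¹ * g' := by
      rw [hg']; group
    rw [h3]
    exact IntermediateField.fixingSubgroup_antitone hFF' h2

end Fermat.Agent.S59.TWGal.H59
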