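import Fermat.Agent.S59.TWGal.Defs

/-!
# S59, package TW-GAL, leaf EIG (helper60): `Stmt_EIG`

An endomorphism of a free module of rank `2` over a henselian local ring whose characteristic
polynomial is `(X - α)(X - β)` modulo `𝔪` with `α ≠ β` has an eigenbasis.

Proof: Hensel gives roots `a₁`, `a₂` of the characteristic polynomial lifting `α`, `β`;
`a₁ + a₂ = tr`, `a₁ a₂ = det`; in a basis, the columns of `M - a₂` are eigenvectors for `a₁` and
the columns of `M - a₁` are eigenvectors for `a₂`; as `(p - a₂) + (s - a₂) = a₁ - a₂` is a unit,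
one of the diagonal entries of `M - a₂` is a unit, and the determinant of the corresponding pair
of columns is a unit.
-/

set_option autoImplicit false

open Polynomial IsLocalRing

namespace Fermat.Agent.S59.TWGal.H60

section Hensel

variable {A : Type*} [CommRing A] [HenselianLocalRing A]

/-- Hensel: a simple root of the reduction lifts. -/
theorem exists_root_lift (P : A[X]) (hP : P.Monic) (α β : ResidueField A) (hαβ : α ≠ β)
    (hcp : P.map (residue A) = (X - C α) * (X - C β)) :
    ∃ a : A, P.IsRoot a ∧ residue A a = α := by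
  obtain ⟨a₀, ha₀⟩ := residue_surjective α
  have h1 : P.eval a₀ ∈ maximalIdeal A := by
    rw [← residue_eq_zero_iff, ← eval_map_apply, hcp, ha₀]
    simp
  have h2 : IsUnit (P.derivative.eval a₀) := by
    rw [← residue_ne_zero_iff_isUnit, ← eval_map_apply, ← derivative_map, hcp, ha₀]
    have hd : (derivative ((X - C α) * (X - C β))).eval α = α - β := by
      simp
    rw [hd]
    exact sub_ne_zero.mpr hαβ
  obtain ⟨a, ha, haa⟩ := HenselianLocalRing.is_henselian P hP a₀ h1 h2
  refine ⟨a, ha, ?_⟩
  rw [← ha₀, ← sub_eq_zero, ← map_sub, residue_eq_zero_iff]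
  exact haa

end Hensel

section Basis

variable {A : Type*} [CommRing A] {V : Type*} [AddCommGroup V] [Module A V]

/-- Two vectors with unit determinant form a basis. -/
theorem exists_basis_of_isUnit (e : Module.Basis (Fin 2) A V) (x₁ y₁ x₂ y₂ : A)
    (hdet : IsUnit (x₁ * y₂ - x₂ * y₁)) :
    ∃ b : Module.Basis (Fin 2) A V, b 0 = x₁ • e 0 + y₁ • e 1 ∧ b 1 = x₂ • e 0 + y₂ • e 1 := by
  set v : Fin 2 → V := ![x₁ • e 0 + y₁ • e 1, x₂ • e 0 + y₂ • e 1] with hv
  have hdv : e.det v = x₁ * y₂ - x₂ * y₁ := by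
    rw [Module.Basis.det_apply, Matrix.det_fin_two]
    simp only [Module.Basis.toMatrix_apply, hv, Matrix.cons_val_zero, Matrix.cons_val_one,
      map_add, map_smul, Module.Basis.repr_self, Finsupp.smul_single, smul_eq_mul, mul_one,
      Finsupp.add_apply, Finsupp.single_apply]
    simp
  have h := (Module.Basis.is_basis_iff_det e (v := v)).mpr (by rw [hdv]; exact hdet)
  refine ⟨Module.Basis.mk h.1 h.2.ge, ?_, ?_⟩
  · rw [Module.Basis.mk_apply]; rfl
  · rw [Module.Basis.mk_apply]; rfl

end Basis

/-- **EIG**: eigenbasis from distinct residual eigenvalues. -/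
theorem stmt_EIG : Stmt_EIG := by
  intro A _ _ _ V _ _ _ _ hrk f α β hαβ hcp
  -- a basis and the matrix
  let e : Module.Basis (Fin 2) A V := Module.finBasisOfFinrankEq A V hrk
  set M : Matrix (Fin 2) (Fin 2) A := LinearMap.toMatrix e e f with hM
  have hcpM : M.charpoly = f.charpoly := LinearMap.charpoly_toMatrix f e
  set p : A := M 0 0 with hp
  set q : A := M 0 1 with hq
  set r : A := M 1 0 with hr
  set s : A := M 1 1 with hs
  have hP : f.charpoly = X ^ 2 - C (p + s) * X + C (p * s - q * r) := by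
    rw [← hcpM, Matrix.charpoly_fin_two, Matrix.trace_fin_two, Matrix.det_fin_two]
  have hfe0 : f (e 0) = p • e 0 + r • e 1 := by
    have := e.sum_repr (f (e 0))
    rw [Fin.sum_univ_two] at this
    rw [← this, hp, hr, hM, LinearMap.toMatrix_apply, LinearMap.toMatrix_apply]
  have hfe1 : f (e 1) = q • e 0 + s • e 1 := by
    have := e.sum_repr (f (e 1))
    rw [Fin.sum_univ_two] at this
    rw [← this, hq, hs, hM, LinearMap.toMatrix_apply, LinearMap.toMatrix_apply]
  -- Hensel
  have hmonic : f.charpoly.Monic := LinearMap.charpoly_monic f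
  obtain ⟨a₁, hr₁, ha₁⟩ := exists_root_lift f.charpoly hmonic α β hαβ hcp
  obtain ⟨a₂, hr₂, ha₂⟩ := exists_root_lift f.charpoly hmonic β α (Ne.symm hαβ)
    (by rw [hcp, mul_comm])
  have hu : IsUnit (a₁ - a₂) := by
    rw [← residue_ne_zero_iff_isUnit, map_sub, ha₁, ha₂]
    exact sub_ne_zero.mpr hαβ
  have he₁ : a₁ ^ 2 - (p + s) * a₁ + (p * s - q * r) = 0 := by
    have := hr₁
    rw [IsRoot, hP] at this
    simpa using this
  have he₂ : a₂ ^ 2 - (p + s) * a₂ + (p * s - q * r) = 0 := by
    have := hr₂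
    rw [IsRoot, hP] at this
    simpa using this
  have hsum : a₁ + a₂ = p + s := by
    have h1 : (a₁ - a₂) * (a₁ + a₂ - (p + s)) = 0 := by
      linear_combination he₁ - he₂
    have h2 := (hu.mul_right_eq_zero).mp h1
    linear_combination h2
  have hprod : a₁ * a₂ = p * s - q * r := by
    linear_combination (-1 : A) * he₁ + a₁ * hsum
  -- eigenvectors
  have heig₁a : f ((p - a₂) • e 0 + r • e 1) = a₁ • ((p - a₂) • e 0 + r • e 1) := by
    rw [map_add, map_smul, map_smul, hfe0, hfe1]
    have c0 : (p - a₂) * p + r * q = a₁ * (p - a₂) := by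
      linear_combination hprod - p * hsum
    have c1 : (p - a₂) * r + r * s = a₁ * r := by
      linear_combination (-r) * hsum
    calc (p - a₂) • (p • e 0 + r • e 1) + r • (q • e 0 + s • e 1)
        = ((p - a₂) * p + r * q) • e 0 + ((p - a₂) * r + r * s) • e 1 := by module
      _ = (a₁ * (p - a₂)) • e 0 + (a₁ * r) • e 1 := by rw [c0, c1]
      _ = a₁ • ((p - a₂) • e 0 + r • e 1) := by module
  have heig₁b : f (q • e 0 + (s - a₂) • e 1) = a₁ • (q • e 0 + (s - a₂) • e 1) := by
    rw [map_add, map_smul, map_smul, hfe0, hfe1]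
    have c0 : q * p + (s - a₂) * q = a₁ * q := by
      linear_combination (-q) * hsum
    have c1 : q * r + (s - a₂) * s = a₁ * (s - a₂) := by
      linear_combination hprod - s * hsum
    calc q • (p • e 0 + r • e 1) + (s - a₂) • (q • e 0 + s • e 1)
        = (q * p + (s - a₂) * q) • e 0 + (q * r + (s - a₂) * s) • e 1 := by module
      _ = (a₁ * q) • e 0 + (a₁ * (s - a₂)) • e 1 := by rw [c0, c1]
      _ = a₁ • (q • e 0 + (s - a₂) • e 1) := by module
  have heig₂a : f ((p - a₁) • e 0 + r • e 1) = a₂ • ((p - a₁) • e 0 + r • e 1) := by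
    rw [map_add, map_smul, map_smul, hfe0, hfe1]
    have c0 : (p - a₁) * p + r * q = a₂ * (p - a₁) := by
      linear_combination hprod - p * hsum
    have c1 : (p - a₁) * r + r * s = a₂ * r := by
      linear_combination (-r) * hsum
    calc (p - a₁) • (p • e 0 + r • e 1) + r • (q • e 0 + s • e 1)
        = ((p - a₁) * p + r * q) • e 0 + ((p - a₁) * r + r * s) • e 1 := by module
      _ = (a₂ * (p - a₁)) • e 0 + (a₂ * r) • e 1 := by rw [c0, c1]
      _ = a₂ • ((p - a₁) • e 0 + r • e 1) := by module
  have heig₂b : f (q • e 0 + (s - a₁) • e 1) = a₂ • (q • e 0 + (s - a₁) • e 1) := by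
    rw [map_add, map_smul, map_smul, hfe0, hfe1]
    have c0 : q * p + (s - a₁) * q = a₂ * q := by
      linear_combination (-q) * hsum
    have c1 : q * r + (s - a₁) * s = a₂ * (s - a₁) := by
      linear_combination hprod - s * hsum
    calc q • (p • e 0 + r • e 1) + (s - a₁) • (q • e 0 + s • e 1)
        = (q * p + (s - a₁) * q) • e 0 + (q * r + (s - a₁) * s) • e 1 := by module
      _ = (a₂ * q) • e 0 + (a₂ * (s - a₁)) • e 1 := by rw [c0, c1]
      _ = a₂ • (q • e 0 + (s - a₁) • e 1) := by module
  -- one of the diagonal entries of `M - a₂` is a unit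
  have hu' : IsUnit ((p - a₂) + (s - a₂)) := by
    have : (p - a₂) + (s - a₂) = a₁ - a₂ := by linear_combination (-1 : A) * hsum
    rw [this]; exact hu
  rcases isUnit_or_isUnit_of_isUnit_add hu' with hA | hB
  · -- first column of `M - a₂`, second column of `M - a₁`
    have hdet : IsUnit ((p - a₂) * (s - a₁) - q * r) := by
      have : (p - a₂) * (s - a₁) - q * r = (p - a₂) * (a₂ - a₁) := by
        linear_combination (-1 : A) * hprod + a₂ * hsum
      rw [this]
      have hu2 : IsUnit (a₂ - a₁) := by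
        have : a₂ - a₁ = -(a₁ - a₂) := by ring
        rw [this]; exact hu.neg
      exact hA.mul hu2
    obtain ⟨b, hb0, hb1⟩ := exists_basis_of_isUnit e (p - a₂) r q (s - a₁) hdet
    exact ⟨b, a₁, a₂, ha₁, ha₂, by rw [hb0]; exact heig₁a, by rw [hb1]; exact heig₂b⟩
  · -- second column of `M - a₂`, first column of `M - a₁`
    have hdet : IsUnit (q * r - (p - a₁) * (s - a₂)) := by
      have : q * r - (p - a₁) * (s - a₂) = (s - a₂) * (a₁ - a₂) := by
        linear_combination hprod - a₂ * hsum
      rw [this]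
      exact hB.mul hu
    obtain ⟨b, hb0, hb1⟩ := exists_basis_of_isUnit e q (s - a₂) (p - a₁) r hdet
    exact ⟨b, a₁, a₂, ha₁, ha₂, by rw [hb0]; exact heig₁b, by rw [hb1]; exact heig₂a⟩

end Fermat.Agent.S59.TWGal.H60
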