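/-
S59 package TW-GAL: the splitting G1, unconditional (helper14; leaves: helper1 MatUnip/MatDiag,
helper60 EIG, helper59 TAME).
-/
import Fermat.Agent.S59.TWGal.G1
import Fermat.Agent.S59.TWGal.H01_MatUnip
import Fermat.Agent.S59.TWGal.H01_MatDiag
import Fermat.Agent.S59.TWGal.H60_Eig
import Fermat.Agent.S59.TWGal.H59_Tame

set_option autoImplicit false

namespace Fermat.Agent.S59.TWGal

/-- **G1**: splitting of a deformation at a Taylor–Wiles prime. -/
theorem stmt_G1 : Stmt_G1 :=
  stmt_G1_of H01.stmt_MatUnip H01.stmt_MatDiag H60.stmt_EIG H59.stmt_TAME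

end Fermat.Agent.S59.TWGal
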