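/-
S59, package TW-GAL, third interface file (helper14): the characters on inertia factor through
the mod `q` cyclotomic character (G2c).
-/
import Fermat.Agent.S59.TWGal.Defs2

set_option autoImplicit false

open Polynomial IsLocalRing

namespace Fermat.Agent.S59.TWGal

/-- **CYCq** (= `Tate.T7.Stmt_CYC`, repeated here to keep the imports small): the inertia group at
`P ∣ q` surjects onto `Gal(ℚ(μ_q)/ℚ)`. -/
def Stmt_CYCq : Prop :=
  ∀ (q : ℕ), q.Prime → ∀ P : ValuationSubring Qb, P.LiesOverPrime q →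
    ∀ a : ℕ, ¬ q ∣ a → ∃ σ ∈ P.inertiaSubgroupIn ℚ, ∀ μ : Qb, μ ^ q = 1 → σ μ = μ ^ a

/-- **G2c**: an element of the inertia group at `P ∣ q` which fixes the `q`-th roots of unity
has `χ_i = 1`: the characters `χ_i` on `I_P` factor through the mod `q` cyclotomic character.
[At level `N` take `F ∋ ζ_q` containing the field of level `N`; `TAME` gives `τ₀` with
`σ ≡ τ₀ ^ j` modulo elements of `q`-power order (which fix `ζ_q`); by `CYCq` the exponent `a₀`
of `τ₀` on `μ_q` is a primitive root modulo `q`; `σ ζ = ζ` gives `q - 1 ∣ j`, and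
`χ_i(τ₀) ^ (q - 1) ≡ 1`.] -/
def Stmt_G2c : Prop :=
  ∀ (A : Type) [CommRing A] [IsLocalRing A] [IsNoetherianRing A]
    (p : ℕ), p.Prime → (p : A) ∈ maximalIdeal A →
  ∀ (ρ : GaloisRepAdic A) (q : ℕ), q.Prime → q ≠ p →
  ∀ (P : ValuationSubring Qb), P.LiesOverPrime q → InertiaTrivMod ρ P →
  ∀ (φ : GQ), P.IsFrobeniusAt φ q →
  ∀ (b : Module.Basis (Fin 2) A ρ.V), DiagOn ρ P b →
    ∀ σ ∈ P.inertiaSubgroupIn ℚ, (∀ ζ : Qb, ζ ^ q = 1 → σ ζ = ζ) →
      ∀ i : Fin 2, chi ρ b i σ = 1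

end Fermat.Agent.S59.TWGal
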