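/-
S59 package TW-GAL, leaf G2c (helper14): the characters on inertia factor through the mod `q`
cyclotomic character:  `Stmt_TAME → Stmt_MatUnip → Stmt_CYCq → Stmt_G2a → Stmt_G2c`.
-/
import Fermat.Agent.S59.TWGal.Defs3
import Fermat.Agent.S59.TWGal.G1

set_option autoImplicit false
set_option linter.style.haveILetI false

open Polynomial IsLocalRing

namespace Fermat.Agent.S59.TWGal

/-! ### Diagonal matrices -/

section diag

variable {R : Type} [CommRing R]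

lemma IsDiag.mul_apply_diag {X Y : Matrix (Fin 2) (Fin 2) R} (hX : IsDiag X) (_hY : IsDiag Y)
    (i : Fin 2) : (X * Y) i i = X i i * Y i i := by
  rw [Matrix.mul_apply, Fin.sum_univ_two]
  fin_cases i
  · show X 0 0 * Y 0 0 + X 0 1 * Y 1 0 = X 0 0 * Y 0 0
    rw [hX.1, zero_mul, add_zero]
  · show X 1 0 * Y 0 1 + X 1 1 * Y 1 1 = X 1 1 * Y 1 1
    rw [hX.2, zero_mul, zero_add]

lemma IsDiag.pow_apply_diag {X : Matrix (Fin 2) (Fin 2) R} (hX : IsDiag X) (n : ℕ) (i : Fin 2) :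
    (X ^ n) i i = X i i ^ n := by
  induction n with
  | zero => rw [pow_zero, pow_zero, Matrix.one_apply_eq]
  | succ n ih => rw [pow_succ, (hX.pow n).mul_apply_diag hX, ih, pow_succ]

end diag

section chi

variable {A : Type} [CommRing A] [IsLocalRing A]

lemma chi_eq_mat (ρ : GaloisRepAdic A) (b : Module.Basis (Fin 2) A ρ.V) (i : Fin 2) (g : GQ) :
    chi ρ b i g = mat b (ρ.ρ g) i i := (mat_apply b (ρ.ρ g) i i).symm

lemma isDiag_of_diagOn {ρ : GaloisRepAdic A} {P : ValuationSubring Qb}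
    {b : Module.Basis (Fin 2) A ρ.V} (hD : DiagOn ρ P b) {g : GQ}
    (hg : g ∈ P.decompositionSubgroup ℚ) : IsDiag (mat b (ρ.ρ g)) := by
  obtain ⟨x, y, hx, hy⟩ := hD g hg
  constructor
  · rw [mat_apply, hy, map_smul, Module.Basis.repr_self, Finsupp.smul_apply,
      Finsupp.single_eq_of_ne (by decide), smul_zero]
  · rw [mat_apply, hx, map_smul, Module.Basis.repr_self, Finsupp.smul_apply,
      Finsupp.single_eq_of_ne (by decide), smul_zero]

end chi

/-! ### Action on the `q`-th roots of unity -/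

section roots

variable {q : ℕ} {ζ₀ : Qb}

/-- If `g ζ₀ = ζ₀ ^ k` then `g ^ n` acts by `k ^ n`. -/
lemma pow_apply_root (g : GQ) (k : ℕ) (h : g ζ₀ = ζ₀ ^ k) (n : ℕ) :
    (g ^ n) ζ₀ = ζ₀ ^ (k ^ n) := by
  induction n with
  | zero => simp
  | succ n ih =>
    rw [pow_succ, AlgEquiv.mul_apply, h, map_pow, ih, ← pow_mul, pow_succ]

/-- An element of `q`-power order on `ζ₀` fixes `ζ₀`. -/
lemma fix_root_of_pow (hq : q.Prime) (hζ₀ : IsPrimitiveRoot ζ₀ q) (w : GQ) (e : ℕ)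
    (h : (w ^ (q ^ e)) ζ₀ = ζ₀) : w ζ₀ = ζ₀ := by
  haveI : Fact q.Prime := ⟨hq⟩
  have hw : (w ζ₀) ^ q = 1 := by rw [← map_pow, hζ₀.pow_eq_one, map_one]
  obtain ⟨k, -, hk⟩ := hζ₀.eq_pow_of_pow_eq_one hw
  have h1 := pow_apply_root w k hk.symm (q ^ e)
  rw [h] at h1
  have hord : orderOf ζ₀ = q := hζ₀.eq_orderOf.symm
  have hfo : IsOfFinOrder ζ₀ := isOfFinOrder_iff_pow_eq_one.2 ⟨q, hq.pos, hζ₀.pow_eq_one⟩
  have h2 : ζ₀ ^ 1 = ζ₀ ^ (k ^ (q ^ e)) := by rw [pow_one]; exact h1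
  have h3 : 1 ≡ k ^ (q ^ e) [MOD q] := by
    have := hfo.pow_eq_pow_iff_modEq.1 h2
    rwa [hord] at this
  have h4 : ((k : ZMod q)) = 1 := by
    have h5 := (ZMod.natCast_eq_natCast_iff _ _ _).2 h3
    rw [Nat.cast_pow, ZMod.pow_card_pow, Nat.cast_one] at h5
    exact h5.symm
  have h6 : k ≡ 1 [MOD q] := by
    rw [← ZMod.natCast_eq_natCast_iff, h4, Nat.cast_one]
  rw [← hk]
  have : ζ₀ ^ k = ζ₀ ^ 1 := hfo.pow_eq_pow_iff_modEq.2 (by rw [hord]; exact h6)
  rw [this, pow_one]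

end roots

/-- **G2c** from the leaves. -/
theorem stmt_G2c_of (hTAME : Stmt_TAME) (hMU : Stmt_MatUnip) (hCYC : Stmt_CYCq)
    (hG2a : Stmt_G2a) : Stmt_G2c := by
  intro A _ _ _ p hp hpA ρ q hq hqp P hP hI φ hφ b hD σ hσ hσζ i
  haveI : Fact q.Prime := ⟨hq⟩
  haveI : NeZero q := ⟨hq.ne_zero⟩
  have hcop : ∀ e : ℕ, (q ^ e).Coprime p :=
    fun e => Nat.Coprime.pow_left e ((Nat.coprime_primes hq hp).2 hqp)
  -- Krull
  have hkrull : ∀ x : A, (∀ N : ℕ, x ∈ maximalIdeal A ^ N) → x = 0 := by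
    intro x hx
    have h := Ideal.iInf_pow_eq_bot_of_isLocalRing (maximalIdeal A)
      (maximalIdeal.isMaximal A).ne_top
    have hmem : x ∈ ⨅ i : ℕ, maximalIdeal A ^ i := by
      rw [Ideal.mem_iInf]; exact hx
    rw [h] at hmem
    exact (Submodule.mem_bot A).1 hmem
  rw [← sub_eq_zero]
  refine hkrull _ fun N => ?_
  -- level `N`
  obtain ⟨L, hL, hcont⟩ := ρ.isAdicContinuous N
  obtain ⟨ζ₀, hζ₀⟩ := HasEnoughRootsOfUnity.exists_primitiveRoot Qb q
  have hζint : IsIntegral ℚ ζ₀ := (AlgebraicClosure.isAlgebraic ℚ).isIntegral.isIntegral ζ₀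
  haveI : FiniteDimensional ℚ L := hL
  haveI : FiniteDimensional ℚ (IntermediateField.adjoin ℚ {ζ₀}) :=
    IntermediateField.adjoin.finiteDimensional hζint
  let F : IntermediateField ℚ Qb := L ⊔ IntermediateField.adjoin ℚ {ζ₀}
  have hF : FiniteDimensional ℚ F := IntermediateField.finiteDimensional_sup _ _
  have hLF : L ≤ F := le_sup_left
  have hζF : ζ₀ ∈ F :=
    (le_sup_right : IntermediateField.adjoin ℚ {ζ₀} ≤ F)
      (IntermediateField.mem_adjoin_simple_self ℚ ζ₀)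
  obtain ⟨τ₀, hτ₀, hcyc, -, -⟩ := hTAME q hq P hP φ hφ F hF
  have hIle : ∀ {g : GQ}, g ∈ P.inertiaSubgroupIn ℚ → g ∈ P.decompositionSubgroup ℚ := by
    rintro g ⟨s, -, rfl⟩
    exact s.2
  -- elements fixing `F` are trivial modulo `𝔪 ^ N`
  have hfix : ∀ u ∈ F.fixingSubgroup, red (maximalIdeal A ^ N) (mat b (ρ.ρ u)) = 1 := by
    intro u hu
    rw [red_eq_one_iff]
    exact mat_sub_one_mem b _ _
      (hcont u (fun x hx => (IntermediateField.mem_fixingSubgroup_iff F u).1 hu x (hLF hx)))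
  have hwild : ∀ w ∈ P.inertiaSubgroupIn ℚ, ∀ e : ℕ, w ^ (q ^ e) ∈ F.fixingSubgroup →
      red (maximalIdeal A ^ N) (mat b (ρ.ρ w)) = 1 := by
    intro w hw e hwe
    rw [red_eq_one_iff]
    refine hMU A (maximalIdeal A) p (q ^ e) N hpA (hcop e) (mat b (ρ.ρ w)) ?_ ?_
    · exact mat_sub_one_mem b _ _ (hI w hw)
    · have e1 : mat b (ρ.ρ w) ^ (q ^ e) = mat b (ρ.ρ (w ^ (q ^ e))) := by
        rw [mat, mat, map_pow ρ.ρ, map_pow]
      rw [e1, ← red_eq_one_iff]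
      exact hfix _ hwe
  have hwildζ : ∀ w : GQ, ∀ e : ℕ, w ^ (q ^ e) ∈ F.fixingSubgroup → w ζ₀ = ζ₀ := by
    intro w e hwe
    exact fix_root_of_pow hq hζ₀ w e ((IntermediateField.mem_fixingSubgroup_iff F _).1 hwe ζ₀ hζF)
  -- the exponent of `τ₀`
  have hτζ : (τ₀ ζ₀) ^ q = 1 := by rw [← map_pow, hζ₀.pow_eq_one, map_one]
  obtain ⟨a₀, -, ha₀⟩ := hζ₀.eq_pow_of_pow_eq_one hτζ
  have hord : orderOf ζ₀ = q := hζ₀.eq_orderOf.symm
  have hfo : IsOfFinOrder ζ₀ := isOfFinOrder_iff_pow_eq_one.2 ⟨q, hq.pos, hζ₀.pow_eq_one⟩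
  -- every element of the inertia group acts on `ζ₀` as a power of `τ₀`
  have hact : ∀ σ' ∈ P.inertiaSubgroupIn ℚ, ∃ j : ℕ, σ' ζ₀ = ζ₀ ^ (a₀ ^ j) ∧
      red (maximalIdeal A ^ N) (mat b (ρ.ρ σ')) =
        red (maximalIdeal A ^ N) (mat b (ρ.ρ τ₀)) ^ j := by
    intro σ' hσ'
    obtain ⟨j, e, hje⟩ := hcyc σ' hσ'
    refine ⟨j, ?_, ?_⟩
    · have h1 := hwildζ _ e hje
      have h2 : σ' = τ₀ ^ j * ((τ₀ ^ j)⁻¹ * σ') := by group
      rw [h2, AlgEquiv.mul_apply, h1]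
      exact pow_apply_root τ₀ a₀ ha₀.symm j
    · have h1 := hwild _ (mul_mem (inv_mem (pow_mem hτ₀ j)) hσ') e hje
      have h2 : σ' = τ₀ ^ j * ((τ₀ ^ j)⁻¹ * σ') := by group
      have e1 : mat b (ρ.ρ σ') = mat b (ρ.ρ τ₀) ^ j * mat b (ρ.ρ ((τ₀ ^ j)⁻¹ * σ')) := by
        conv_lhs => rw [h2]
        rw [mat, mat, mat, map_mul ρ.ρ, map_pow ρ.ρ, map_mul, map_pow]
      rw [e1, map_mul, h1, mul_one, map_pow]
  -- `a₀` generates the units modulo `q`
  have ha₀unit : ∀ u : (ZMod q)ˣ, ∃ j : ℕ, (u : ZMod q) = (a₀ : ZMod q) ^ j := by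
    intro u
    have hu0 : (u : ZMod q) ≠ 0 := u.ne_zero
    have hnd : ¬ q ∣ (u : ZMod q).val := by
      intro hdvd
      apply hu0
      have := (ZMod.natCast_eq_zero_iff _ q).2 hdvd
      rwa [ZMod.natCast_zmod_val] at this
    obtain ⟨σ', hσ', hσ'ζ⟩ := hCYC q hq P hP _ hnd
    obtain ⟨j, hj, -⟩ := hact σ' hσ'
    refine ⟨j, ?_⟩
    have h1 : ζ₀ ^ (u : ZMod q).val = ζ₀ ^ (a₀ ^ j) := by
      rw [← hσ'ζ ζ₀ hζ₀.pow_eq_one, hj]
    have h2 : (u : ZMod q).val ≡ a₀ ^ j [MOD q] := by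
      have := hfo.pow_eq_pow_iff_modEq.1 h1
      rwa [hord] at this
    have h3 := (ZMod.natCast_eq_natCast_iff _ _ _).2 h2
    rw [ZMod.natCast_zmod_val, Nat.cast_pow] at h3
    exact h3
  -- the exponent `j` of `σ` is divisible by `q - 1`
  obtain ⟨j, hj, hred⟩ := hact σ hσ
  have hj1 : (a₀ : ZMod q) ^ j = 1 := by
    have h1 : ζ₀ ^ 1 = ζ₀ ^ (a₀ ^ j) := by
      rw [pow_one, ← hj, hσζ ζ₀ hζ₀.pow_eq_one]
    have h2 : 1 ≡ a₀ ^ j [MOD q] := by
      have := hfo.pow_eq_pow_iff_modEq.1 h1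
      rwa [hord] at this
    have h3 := (ZMod.natCast_eq_natCast_iff _ _ _).2 h2
    rw [Nat.cast_one, Nat.cast_pow] at h3
    exact h3.symm
  have hdvd : (q - 1) ∣ j := by
    -- `a₀` is a unit generating `(ZMod q)ˣ`
    have ha₀ne : (a₀ : ZMod q) ≠ 0 := by
      intro h0
      obtain ⟨j', hj'⟩ := ha₀unit 1
      rw [Units.val_one, h0] at hj'
      rcases Nat.eq_zero_or_pos j' with hz | hpos
      · -- then use `j`: `0 ^ j = 1` forces `j = 0`
        rw [h0] at hj1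
        rcases Nat.eq_zero_or_pos j with hz' | hpos'
        · -- all units are `1`: `q = 2`, nothing to prove... handled below
          exact absurd hj1 (by
            -- `j = 0` gives no contradiction; use another unit
            intro _
            -- every unit is a power of `0`, hence `1` or `0`
            have hall : ∀ u : (ZMod q)ˣ, u = 1 := by
              intro u
              obtain ⟨i', hi'⟩ := ha₀unit u
              rw [h0] at hi'
              rcases Nat.eq_zero_or_pos i' with hz'' | hpos''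
              · rw [hz'', pow_zero] at hi'
                exact Units.ext hi'
              · rw [zero_pow hpos''.ne'] at hi'
                exact absurd hi' u.ne_zero
            -- but `τ₀ ζ₀ = ζ₀ ^ a₀ = 1` is impossible
            have h1 : ζ₀ ^ a₀ = 1 := by
              have hq_dvd : q ∣ a₀ := (ZMod.natCast_eq_zero_iff _ q).1 h0
              obtain ⟨c, rfl⟩ := hq_dvd
              rw [pow_mul, hζ₀.pow_eq_one, one_pow]
            have h2 : τ₀ ζ₀ = 1 := by rw [← ha₀, h1]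
            have h3 : ζ₀ = 1 := by
              have := congrArg τ₀.symm h2
              rwa [AlgEquiv.symm_apply_apply, map_one] at this
            exact hζ₀.ne_one hq.one_lt h3)
        · rw [zero_pow hpos'.ne'] at hj1
          exact absurd hj1 zero_ne_one
      · rw [zero_pow hpos.ne'] at hj'
        exact absurd hj' one_ne_zero
    let x : (ZMod q)ˣ := Units.mk0 (a₀ : ZMod q) ha₀ne
    have hxgen : ∀ u : (ZMod q)ˣ, u ∈ Subgroup.zpowers x := by
      intro u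
      obtain ⟨j', hj'⟩ := ha₀unit u
      refine ⟨(j' : ℤ), ?_⟩
      apply Units.ext
      show ((x ^ (j' : ℤ) : (ZMod q)ˣ) : ZMod q) = u
      rw [zpow_natCast, Units.val_pow_eq_pow_val]
      exact hj'.symm
    have hordx : orderOf x = q - 1 := by
      rw [orderOf_eq_card_of_forall_mem_zpowers hxgen, Nat.card_eq_fintype_card, ZMod.card_units]
    have hxj : x ^ j = 1 := by
      apply Units.ext
      rw [Units.val_pow_eq_pow_val, Units.val_one]
      exact hj1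
    rw [← hordx]
    exact orderOf_dvd_of_pow_eq_one hxj
  obtain ⟨j', rfl⟩ := hdvd
  -- conclusion
  have hτdiag : IsDiag (mat b (ρ.ρ τ₀)) := isDiag_of_diagOn hD (hIle hτ₀)
  have hτpow : chi ρ b i τ₀ ^ (q - 1) = 1 :=
    hG2a A p hp hpA ρ q hq hqp P hP hI φ hφ b hD τ₀ hτ₀ i
  have h1 : red (maximalIdeal A ^ N) (mat b (ρ.ρ σ) - mat b (ρ.ρ τ₀) ^ ((q - 1) * j')) = 0 := by
    rw [map_sub, map_pow, hred, sub_self]
  have h2 := (red_apply_eq_zero_iff (maximalIdeal A ^ N) _ i i).1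
    (by rw [h1, Matrix.zero_apply])
  rw [Matrix.sub_apply, hτdiag.pow_apply_diag, ← chi_eq_mat, ← chi_eq_mat, pow_mul, hτpow,
    one_pow] at h2
  exact h2

end Fermat.Agent.S59.TWGal
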