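/-
S59, package TW-GAL, leaf G3 (helper4): `stmt_G3 : Stmt_G3`.
A base change of `ρ` (diagonal on the decomposition group) along a local homomorphism `π` is
unramified at `P` iff `π` kills `χ_i(σ₀) - 1` for a generator `σ₀` of the image of inertia.
-/
import Fermat.Agent.S59.TWGal.Defs2

set_option autoImplicit false

open Polynomial IsLocalRing TensorProduct

namespace Fermat.Agent.S59.TWGal.H4

open Fermat.Agent.S59.TWGal

section

variable {A : Type} [CommRing A] [IsLocalRing A]

lemma mem_decomp_of_mem_inertia {P : ValuationSubring Qb} {σ : GQ}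
    (hσ : σ ∈ P.inertiaSubgroupIn ℚ) : σ ∈ P.decompositionSubgroup ℚ := by
  obtain ⟨g, _, rfl⟩ := hσ
  exact g.2

/-- On the decomposition group, `ρ(g)` multiplies `b i` by `χ_i(g)`. -/
lemma rho_apply_basis {ρ : GaloisRepAdic A} {P : ValuationSubring Qb}
    {b : Module.Basis (Fin 2) A ρ.V} (hb : DiagOn ρ P b) {g : GQ}
    (hg : g ∈ P.decompositionSubgroup ℚ) (i : Fin 2) :
    ρ.ρ g (b i) = chi ρ b i g • b i := by
  obtain ⟨x, y, hx, hy⟩ := hb g hg
  fin_cases i
  · show ρ.ρ g (b 0) = chi ρ b 0 g • b 0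
    have : chi ρ b 0 g = x := by
      unfold chi
      rw [hx]
      simp
    rw [this, hx]
  · show ρ.ρ g (b 1) = chi ρ b 1 g • b 1
    have : chi ρ b 1 g = y := by
      unfold chi
      rw [hy]
      simp
    rw [this, hy]

end

/-- **G3**. -/
theorem stmt_G3 : Stmt_G3 := by
  intro A _ _ ρ P b hb σ₀ hσ₀ hgen B _ _ π hπ
  let _ : Algebra A B := π.toAlgebra
  have hact : ∀ σ ∈ P.inertiaSubgroupIn ℚ, ∀ i : Fin 2,
      (ρ.ρ σ).baseChange B ((1 : B) ⊗ₜ[A] b i) = π (chi ρ b i σ) • ((1 : B) ⊗ₜ[A] b i) := by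
    intro σ hσ i
    rw [LinearMap.baseChange_tmul, rho_apply_basis hb (mem_decomp_of_mem_inertia hσ) i,
      TensorProduct.tmul_smul, TensorProduct.smul_tmul', Algebra.smul_def, mul_one,
      TensorProduct.smul_tmul', smul_eq_mul, mul_one]
    rfl
  constructor
  · intro h
    have key : ∀ i : Fin 2, π (chi ρ b i σ₀) = 1 := by
      intro i
      have h1 := hact σ₀ hσ₀ i
      have h0 : (ρ.ρ σ₀).baseChange B = (1 : Module.End B (B ⊗[A] ρ.V)) := h σ₀ hσ₀
      rw [h0, Module.End.one_apply] at h1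
      have h2 : (b.baseChange B) i = π (chi ρ b i σ₀) • (b.baseChange B) i := by
        rw [Module.Basis.baseChange_apply]
        exact h1
      have h3 := congrArg (fun v => (b.baseChange B).repr v i) h2
      simp only [Module.Basis.repr_self, map_smul, Finsupp.smul_apply, Finsupp.single_eq_same,
        smul_eq_mul, mul_one] at h3
      exact h3.symm
    exact ⟨key 0, key 1⟩
  · rintro ⟨h0, h1⟩ σ hσ
    show (ρ.ρ σ).baseChange B = (1 : Module.End B (B ⊗[A] ρ.V))
    obtain ⟨j, hj⟩ := hgen σ hσ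
    have key : ∀ i : Fin 2, π (chi ρ b i σ) = 1 := by
      intro i
      rw [hj i, map_pow]
      fin_cases i
      · show π (chi ρ b 0 σ₀) ^ j = 1
        rw [h0, one_pow]
      · show π (chi ρ b 1 σ₀) ^ j = 1
        rw [h1, one_pow]
    refine (b.baseChange B).ext fun i => ?_
    rw [Module.Basis.baseChange_apply, hact σ hσ i, key i, one_smul, Module.End.one_apply]

end Fermat.Agent.S59.TWGal.H4
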