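/-
S59, package TW-GAL, leaf RES (helper4): `stmt_RES : Stmt_RES`.
`ρ.residual.ρ σ = 1 ⟹ ρ σ ≡ 1 mod 𝔪`, and the characteristic polynomial of the residual
representation is the reduction of the characteristic polynomial.
-/
import Fermat.Agent.S59.TWGal.Defs2

set_option autoImplicit false

open Polynomial IsLocalRing TensorProduct

namespace Fermat.Agent.S59.TWGal.H4

open Fermat.Agent.S59.TWGal

/-- An element of `M` dying in `(R ⧸ I) ⊗ M` lies in `I M`. -/
lemma mem_smul_top_of_tmul_eq_zero {R M : Type*} [CommRing R] [AddCommGroup M] [Module R M]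
    (I : Ideal R) (x : M) (h : (1 : R ⧸ I) ⊗ₜ[R] x = 0) : x ∈ I • (⊤ : Submodule R M) := by
  have := congrArg (TensorProduct.quotTensorEquivQuotSMul M I) h
  rw [map_zero, ← map_one (Ideal.Quotient.mk I), TensorProduct.quotTensorEquivQuotSMul_mk_tmul,
    one_smul, Submodule.Quotient.mk_eq_zero] at this
  exact this

/-- **RES**. -/
theorem stmt_RES : Stmt_RES := by
  intro A _ _ ρ
  refine ⟨fun σ hσ v => ?_, fun σ => ?_⟩
  · apply mem_smul_top_of_tmul_eq_zero
    have h1 : (ρ.ρ σ).baseChange (ResidueField A) = 1 := hσ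
    have h2 := congrArg (fun f => f ((1 : ResidueField A) ⊗ₜ[A] v)) h1
    simp only [LinearMap.baseChange_tmul, Module.End.one_apply] at h2
    rw [TensorProduct.tmul_sub, sub_eq_zero]
    exact h2
  · show LinearMap.charpoly ((ρ.ρ σ).baseChange (ResidueField A)) = _
    rw [LinearMap.charpoly_baseChange]
    rfl

end Fermat.Agent.S59.TWGal.H4
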