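/-
S59 package TW-GAL (owner helper14): FINAL, unconditional statements.
Leaves: helper1/helper52 (MatUnip, MatDiag), helper60 (EIG), helper59 (TAME), helper41 (G2a, G2b),
helper4 (RES, G3), helper52 (CYC of Tate T7), helper14 (G1 assembly, G2c).

`twgal_main`: for a deformation `ρ` over a complete noetherian local ring `A` (residue
characteristic `p`) at a Taylor–Wiles prime `q ≡ 1 mod p` (residual representation unramified at
`P ∣ q`, residual Frobenius with distinct eigenvalues `α ≠ β`):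
* `ρ|D_P` is diagonal in a basis `b` (characters `χ₀ = chi ρ b 0`, `χ₁ = chi ρ b 1`),
  `χ₀(φ) ≡ α`, `χ₁(φ) ≡ β`;
* on inertia the `χ_i` are `≡ 1 mod 𝔪`, of order dividing `q - 1`, generated by one element `σ₀`,
  and factor through the mod `q` cyclotomic character;
* a base change `ρ ⊗_π B` is unramified at `P` iff `π χ_i(σ₀) = 1` for `i = 0, 1`.
-/
import Fermat.Agent.S59.TWGal.G1Final
import Fermat.Agent.S59.TWGal.G2c
import Fermat.Agent.S59.TWGal.H41_G2Final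
import Fermat.Agent.S59.TWGal.H4_Res
import Fermat.Agent.S59.TWGal.H4_G3
import Fermat.Agent.Tate.T7.H52_Cyc

set_option autoImplicit false

open Polynomial IsLocalRing

namespace Fermat.Agent.S59.TWGal

/-- **CYCq** (helper52's `Tate.T7.H52.stmt_CYC`). -/
theorem stmt_CYCq : Stmt_CYCq := fun q hq P hP a ha =>
  Fermat.Agent.Tate.T7.H52.stmt_CYC q hq P hP a ha

/-- **G2c**, unconditional. -/
theorem stmt_G2c : Stmt_G2c :=
  stmt_G2c_of H59.stmt_TAME H01.stmt_MatUnip stmt_CYCq H41.stmt_G2a_final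

/-- **TW-GAL, main theorem.** -/
theorem twgal_main (A : Type) [CommRing A] [IsLocalRing A] [IsNoetherianRing A]
    [IsAdicComplete (maximalIdeal A) A] (p : ℕ) (hp : p.Prime) (hpA : (p : A) ∈ maximalIdeal A)
    (ρ : GaloisRepAdic A) (q : ℕ) (hq : q.Prime) (hqA : (q : A) - 1 ∈ maximalIdeal A)
    (P : ValuationSubring Qb) (hP : P.LiesOverPrime q)
    (hur : ∀ σ ∈ P.inertiaSubgroupIn ℚ, ρ.residual.ρ σ = 1)
    (φ : GQ) (hφ : P.IsFrobeniusAt φ q) (α β : ResidueField A) (hαβ : α ≠ β)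
    (hchar : LinearMap.charpoly (ρ.residual.ρ φ) = (X - C α) * (X - C β)) :
    ∃ (b : Module.Basis (Fin 2) A ρ.V) (σ₀ : GQ), σ₀ ∈ P.inertiaSubgroupIn ℚ ∧
      DiagOn ρ P b ∧
      residue A (chi ρ b 0 φ) = α ∧ residue A (chi ρ b 1 φ) = β ∧
      (∀ σ ∈ P.inertiaSubgroupIn ℚ, ∃ j : ℕ, ∀ i : Fin 2, chi ρ b i σ = chi ρ b i σ₀ ^ j) ∧
      (∀ σ ∈ P.inertiaSubgroupIn ℚ, ∀ i : Fin 2, chi ρ b i σ ^ (q - 1) = 1) ∧
      (∀ σ ∈ P.inertiaSubgroupIn ℚ, ∀ i : Fin 2, chi ρ b i σ - 1 ∈ maximalIdeal A) ∧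
      (∀ σ ∈ P.inertiaSubgroupIn ℚ, (∀ ζ : Qb, ζ ^ q = 1 → σ ζ = ζ) →
        ∀ i : Fin 2, chi ρ b i σ = 1) ∧
      (∀ (B : Type) [CommRing B] [IsLocalRing B] (π : A →+* B) (hπ : IsLocalHom π),
        (∀ σ ∈ P.inertiaSubgroupIn ℚ, (ρ.baseChangeAlong π hπ).ρ σ = 1) ↔
          (π (chi ρ b 0 σ₀) = 1 ∧ π (chi ρ b 1 σ₀) = 1)) := by
  obtain ⟨hres1, hres2⟩ := H4.stmt_RES A ρ
  have hI : InertiaTrivMod ρ P := fun σ hσ => hres1 σ (hur σ hσ)
  have hchar' : (LinearMap.charpoly (ρ.ρ φ)).map (residue A) = (X - C α) * (X - C β) := by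
    rw [← hres2]; exact hchar
  have hqp : q ≠ p := by
    rintro rfl
    have h1 : (q : A) - ((q : A) - 1) ∈ maximalIdeal A := (maximalIdeal A).sub_mem hpA hqA
    rw [sub_sub_cancel] at h1
    exact (Ideal.ne_top_iff_one _).1 (maximalIdeal.isMaximal A).ne_top h1
  obtain ⟨b, a₁, a₂, ha₁, ha₂, hb0, hb1, hD⟩ :=
    stmt_G1 A p hp hpA ρ q hq hqA P hP hI φ hφ α β hαβ hchar'
  have hD' : DiagOn ρ P b := hD
  obtain ⟨σ₀, hσ₀, hgen⟩ := H41.stmt_G2b_final A p hp hpA ρ q hq hqp P hP hI φ hφ b hD'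
  refine ⟨b, σ₀, hσ₀, hD', ?_, ?_, hgen, ?_, ?_, ?_, ?_⟩
  · rw [chi, hb0, map_smul, Module.Basis.repr_self, Finsupp.smul_apply, Finsupp.single_eq_same,
      smul_eq_mul, mul_one]
    exact ha₁
  · rw [chi, hb1, map_smul, Module.Basis.repr_self, Finsupp.smul_apply, Finsupp.single_eq_same,
      smul_eq_mul, mul_one]
    exact ha₂
  · exact fun σ hσ i => H41.stmt_G2a_final A p hp hpA ρ q hq hqp P hP hI φ hφ b hD' σ hσ i
  · intro σ hσ i
    have h := mat_sub_one_mem b (maximalIdeal A) (ρ.ρ σ) (hI σ hσ) i i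
    rw [Matrix.sub_apply, Matrix.one_apply_eq, ← chi_eq_mat] at h
    exact h
  · exact fun σ hσ hζ i => stmt_G2c A p hp hpA ρ q hq hqp P hP hI φ hφ b hD' σ hσ hζ i
  · intro B _ _ π hπ
    exact H4.stmt_G3 A ρ P b hD' σ₀ hσ₀ hgen B π hπ

end Fermat.Agent.S59.TWGal
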