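/-
S59, package TW-GAL, leaves G2a and G2b (helper41): the two characters of a diagonal
representation on the inertia group have order dividing `q - 1`, and their joint image is cyclic.
`Stmt_TAME → Stmt_MatUnip → Stmt_G2a`, `Stmt_TAME → Stmt_MatUnip → Stmt_G2b`.
-/
import Fermat.Agent.S59.TWGal.G1
import Fermat.Agent.S59.TWGal.Defs2

set_option autoImplicit false

open Polynomial IsLocalRing

namespace Fermat.Agent.S59.TWGal.H41

/-! ### Diagonal matrices -/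

section diag

variable {R : Type} [CommRing R]

lemma isDiag_comm {X Y : Matrix (Fin 2) (Fin 2) R} (hX : IsDiag X) (hY : IsDiag Y) :
    X * Y = Y * X := by
  ext i j
  fin_cases i <;> fin_cases j <;>
    simp [Matrix.mul_apply, Fin.sum_univ_two, hX.1, hX.2, hY.1, hY.2, mul_comm]

lemma isDiag_pow_apply {X : Matrix (Fin 2) (Fin 2) R} (hX : IsDiag X) (n : ℕ) (i : Fin 2) :
    (X ^ n) i i = (X i i) ^ n := by
  induction n with
  | zero => simp
  | succ n ih =>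
    rw [pow_succ, pow_succ, ← ih]
    fin_cases i
    · simp [Matrix.mul_apply, Fin.sum_univ_two, hX.2]
    · simp [Matrix.mul_apply, Fin.sum_univ_two, hX.1]

lemma isDiag_map {S : Type} [CommRing S] (f : R →+* S) {X : Matrix (Fin 2) (Fin 2) R}
    (hX : IsDiag X) : IsDiag (f.mapMatrix X) := by
  constructor
  · rw [RingHom.mapMatrix_apply, Matrix.map_apply, hX.1, map_zero]
  · rw [RingHom.mapMatrix_apply, Matrix.map_apply, hX.2, map_zero]

end diag

/-! ### The matrix representation -/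

section rep

variable {A : Type} [CommRing A] [IsLocalRing A]

/-- The matrix representation attached to a basis. -/
noncomputable def muHom (ρ : GaloisRepAdic A) (b : Module.Basis (Fin 2) A ρ.V) :
    GQ →* Matrix (Fin 2) (Fin 2) A :=
  ((LinearMap.toMatrixAlgEquiv b : Module.End A ρ.V ≃ₐ[A] _) : Module.End A ρ.V →* _).comp ρ.ρ

lemma muHom_eq (ρ : GaloisRepAdic A) (b : Module.Basis (Fin 2) A ρ.V) (g : GQ) :
    muHom ρ b g = mat b (ρ.ρ g) := rfl

lemma muHom_apply (ρ : GaloisRepAdic A) (b : Module.Basis (Fin 2) A ρ.V) (g : GQ)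
    (i j : Fin 2) : muHom ρ b g i j = b.repr (ρ.ρ g (b j)) i := by
  rw [muHom_eq, mat_apply]

lemma chi_eq_muHom (ρ : GaloisRepAdic A) (b : Module.Basis (Fin 2) A ρ.V) (i : Fin 2) (g : GQ) :
    chi ρ b i g = muHom ρ b g i i := by
  rw [muHom_apply]; rfl

lemma isDiag_muHom {ρ : GaloisRepAdic A} {P : ValuationSubring Qb}
    {b : Module.Basis (Fin 2) A ρ.V} (hD : DiagOn ρ P b) {g : GQ}
    (hg : g ∈ P.decompositionSubgroup ℚ) : IsDiag (muHom ρ b g) := by
  obtain ⟨x, y, hx, hy⟩ := hD g hg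
  constructor
  · rw [muHom_apply, hy, map_smul, Module.Basis.repr_self]
    simp
  · rw [muHom_apply, hx, map_smul, Module.Basis.repr_self]
    simp

lemma chi_mul {ρ : GaloisRepAdic A} {P : ValuationSubring Qb}
    {b : Module.Basis (Fin 2) A ρ.V} (hD : DiagOn ρ P b) {g h : GQ}
    (hg : g ∈ P.decompositionSubgroup ℚ) (hh : h ∈ P.decompositionSubgroup ℚ) (i : Fin 2) :
    chi ρ b i (g * h) = chi ρ b i g * chi ρ b i h := by
  rw [chi_eq_muHom, chi_eq_muHom, chi_eq_muHom, map_mul]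
  have h1 := isDiag_muHom hD hg
  have h2 := isDiag_muHom hD hh
  fin_cases i
  · simp [Matrix.mul_apply, Fin.sum_univ_two, h1.1]
  · simp [Matrix.mul_apply, Fin.sum_univ_two, h1.2]

lemma chi_pow {ρ : GaloisRepAdic A} {P : ValuationSubring Qb}
    {b : Module.Basis (Fin 2) A ρ.V} (hD : DiagOn ρ P b) {g : GQ}
    (hg : g ∈ P.decompositionSubgroup ℚ) (i : Fin 2) (n : ℕ) :
    chi ρ b i (g ^ n) = chi ρ b i g ^ n := by
  rw [chi_eq_muHom, chi_eq_muHom, map_pow, isDiag_pow_apply (isDiag_muHom hD hg)]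

end rep

/-! ### Inertia modulo `𝔪 ^ N` -/

section level

variable {A : Type} [CommRing A] [IsLocalRing A]

/-- Krull's intersection theorem for the maximal ideal. -/
lemma eq_zero_of_forall_mem_pow [IsNoetherianRing A] (x : A)
    (hx : ∀ N : ℕ, x ∈ maximalIdeal A ^ N) : x = 0 := by
  have h := Ideal.iInf_pow_eq_bot_of_isLocalRing (maximalIdeal A)
    (maximalIdeal.isMaximal A).ne_top
  have hmem : x ∈ ⨅ i : ℕ, maximalIdeal A ^ i := by
    rw [Ideal.mem_iInf]; exact hx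
  rw [h] at hmem
  exact (Submodule.mem_bot A).1 hmem

/-- At every level `N` the image of inertia is generated by one element `τ₀`, which satisfies
the tame relation `φ τ₀ = τ₀ ^ q φ`. -/
lemma exists_generator_mod (hTAME : Stmt_TAME) (hMU : Stmt_MatUnip) {p : ℕ} (hp : p.Prime)
    (hpA : (p : A) ∈ maximalIdeal A) (ρ : GaloisRepAdic A) {q : ℕ} (hq : q.Prime) (hqp : q ≠ p)
    {P : ValuationSubring Qb} (hP : P.LiesOverPrime q) (hI : InertiaTrivMod ρ P) {φ : GQ}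
    (hφ : P.IsFrobeniusAt φ q) (b : Module.Basis (Fin 2) A ρ.V) (N : ℕ) :
    ∃ τ₀ ∈ P.inertiaSubgroupIn ℚ,
      (∀ σ ∈ P.inertiaSubgroupIn ℚ, ∃ j : ℕ,
        red (maximalIdeal A ^ N) (muHom ρ b σ) = red (maximalIdeal A ^ N) (muHom ρ b τ₀) ^ j) ∧
      red (maximalIdeal A ^ N) (muHom ρ b φ) * red (maximalIdeal A ^ N) (muHom ρ b τ₀) =
        red (maximalIdeal A ^ N) (muHom ρ b τ₀) ^ q * red (maximalIdeal A ^ N) (muHom ρ b φ) := by
  have hcop : ∀ e : ℕ, (q ^ e).Coprime p :=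
    fun e => Nat.Coprime.pow_left e ((Nat.coprime_primes hq hp).2 hqp)
  obtain ⟨L, hL, hcont⟩ := ρ.isAdicContinuous N
  -- elements fixing `L` are trivial modulo `𝔪 ^ N`
  have hfix : ∀ u ∈ L.fixingSubgroup, red (maximalIdeal A ^ N) (muHom ρ b u) = 1 := by
    intro u hu
    rw [red_eq_one_iff]
    exact mat_sub_one_mem b _ _
      (hcont u (fun x hx => (IntermediateField.mem_fixingSubgroup_iff L u).1 hu x hx))
  obtain ⟨τ₀, hτ₀, hcyc, ⟨e₀, hconj⟩, -⟩ := hTAME q hq P hP φ hφ L hL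
  -- inertia elements of `q`-power order modulo `G_L` are trivial modulo `𝔪 ^ N`
  have hwild : ∀ w ∈ P.inertiaSubgroupIn ℚ, ∀ e : ℕ, w ^ (q ^ e) ∈ L.fixingSubgroup →
      red (maximalIdeal A ^ N) (muHom ρ b w) = 1 := by
    intro w hw e hwe
    rw [red_eq_one_iff]
    refine hMU A (maximalIdeal A) p (q ^ e) N hpA (hcop e) (muHom ρ b w) ?_ ?_
    · exact mat_sub_one_mem b _ _ (hI w hw)
    · rw [← map_pow, ← red_eq_one_iff]
      exact hfix _ hwe
  have hφD : φ ∈ P.decompositionSubgroup ℚ := hφ.mem_decompositionSubgroup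
  have hnormal : ∀ {τ σ : GQ}, τ ∈ P.decompositionSubgroup ℚ → σ ∈ P.inertiaSubgroupIn ℚ →
      τ * σ * τ⁻¹ ∈ P.inertiaSubgroupIn ℚ := by
    intro τ σ hτ hσ
    obtain ⟨s, hs, rfl⟩ := hσ
    refine ⟨⟨τ, hτ⟩ * s * ⟨τ, hτ⟩⁻¹, ?_, rfl⟩
    have hn : (P.inertiaSubgroup ℚ).Normal := by
      unfold ValuationSubring.inertiaSubgroup
      infer_instance
    exact hn.conj_mem s hs ⟨τ, hτ⟩
  have hw₀ : (τ₀ ^ q)⁻¹ * (φ * τ₀ * φ⁻¹) ∈ P.inertiaSubgroupIn ℚ :=
    mul_mem (inv_mem (pow_mem hτ₀ q)) (hnormal hφD hτ₀)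
  refine ⟨τ₀, hτ₀, ?_, ?_⟩
  · intro σ hσ
    obtain ⟨j, e, hje⟩ := hcyc σ hσ
    have h1 := hwild _ (mul_mem (inv_mem (pow_mem hτ₀ j)) hσ) e hje
    have h2 : σ = τ₀ ^ j * ((τ₀ ^ j)⁻¹ * σ) := by group
    refine ⟨j, ?_⟩
    conv_lhs => rw [h2]
    rw [map_mul, map_mul, h1, mul_one, map_pow, map_pow]
  · have h1 := hwild _ hw₀ e₀ hconj
    have h2 : φ * τ₀ = τ₀ ^ q * ((τ₀ ^ q)⁻¹ * (φ * τ₀ * φ⁻¹)) * φ := by group
    calc red (maximalIdeal A ^ N) (muHom ρ b φ) * red (maximalIdeal A ^ N) (muHom ρ b τ₀)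
        = red (maximalIdeal A ^ N) (muHom ρ b (φ * τ₀)) := by rw [map_mul, map_mul]
      _ = red (maximalIdeal A ^ N)
            (muHom ρ b (τ₀ ^ q * ((τ₀ ^ q)⁻¹ * (φ * τ₀ * φ⁻¹)) * φ)) := by rw [← h2]
      _ = red (maximalIdeal A ^ N) (muHom ρ b τ₀) ^ q *
            red (maximalIdeal A ^ N) (muHom ρ b φ) := by
          rw [map_mul, map_mul, map_mul, map_mul, h1, mul_one, map_pow, map_pow]

/-- The generator of level `N` has order dividing `q - 1` modulo `𝔪 ^ N` when the decomposition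
group acts diagonally. -/
lemma exists_generator_mod_diag (hTAME : Stmt_TAME) (hMU : Stmt_MatUnip) {p : ℕ} (hp : p.Prime)
    (hpA : (p : A) ∈ maximalIdeal A) (ρ : GaloisRepAdic A) {q : ℕ} (hq : q.Prime) (hqp : q ≠ p)
    {P : ValuationSubring Qb} (hP : P.LiesOverPrime q) (hI : InertiaTrivMod ρ P) {φ : GQ}
    (hφ : P.IsFrobeniusAt φ q) (b : Module.Basis (Fin 2) A ρ.V) (hD : DiagOn ρ P b) (N : ℕ) :
    ∃ τ₀ ∈ P.inertiaSubgroupIn ℚ,
      (∀ σ ∈ P.inertiaSubgroupIn ℚ, ∃ j : ℕ,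
        red (maximalIdeal A ^ N) (muHom ρ b σ) = red (maximalIdeal A ^ N) (muHom ρ b τ₀) ^ j) ∧
      red (maximalIdeal A ^ N) (muHom ρ b τ₀) ^ (q - 1) = 1 := by
  obtain ⟨τ₀, hτ₀, hcyc, hrel⟩ := exists_generator_mod hTAME hMU hp hpA ρ hq hqp hP hI hφ b N
  refine ⟨τ₀, hτ₀, hcyc, ?_⟩
  have hφD : φ ∈ P.decompositionSubgroup ℚ := hφ.mem_decompositionSubgroup
  have hτD : τ₀ ∈ P.decompositionSubgroup ℚ := by
    obtain ⟨s, -, rfl⟩ := hτ₀
    exact s.2
  set F := red (maximalIdeal A ^ N) (muHom ρ b φ) with hF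
  set T := red (maximalIdeal A ^ N) (muHom ρ b τ₀) with hT
  set F' := red (maximalIdeal A ^ N) (muHom ρ b φ⁻¹) with hF'
  set T' := red (maximalIdeal A ^ N) (muHom ρ b τ₀⁻¹) with hT'
  have hFF' : F * F' = 1 := by
    rw [hF, hF', ← map_mul, ← map_mul, mul_inv_cancel, map_one, map_one]
  have hTT' : T * T' = 1 := by
    rw [hT, hT', ← map_mul, ← map_mul, mul_inv_cancel, map_one, map_one]
  have hcomm : F * T = T * F :=
    isDiag_comm (isDiag_map _ (isDiag_muHom hD hφD)) (isDiag_map _ (isDiag_muHom hD hτD))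
  have h1 : T = T ^ q := by
    calc T = T * (F * F') := by rw [hFF', mul_one]
      _ = (F * T) * F' := by rw [← mul_assoc, hcomm]
      _ = (T ^ q * F) * F' := by rw [hrel]
      _ = T ^ q := by rw [mul_assoc, hFF', mul_one]
  have hq1 : q = (q - 1) + 1 := (Nat.sub_add_cancel hq.one_le).symm
  calc T ^ (q - 1) = T ^ (q - 1) * (T * T') := by rw [hTT', mul_one]
    _ = T ^ q * T' := by rw [← mul_assoc, ← pow_succ, ← hq1]
    _ = T * T' := by rw [← h1]
    _ = 1 := hTT'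

end level

/-! ### G2a -/

/-- **G2a**: the two characters have order dividing `q - 1` on inertia. -/
theorem stmt_G2a (hTAME : Stmt_TAME) (hMU : Stmt_MatUnip) : Stmt_G2a := by
  intro A _ _ _ p hp hpA ρ q hq hqp P hP hI φ hφ b hD σ hσ i
  have hσD : σ ∈ P.decompositionSubgroup ℚ := by
    obtain ⟨s, -, rfl⟩ := hσ
    exact s.2
  have hmat : ∀ N : ℕ, red (maximalIdeal A ^ N) (muHom ρ b σ ^ (q - 1)) = 1 := by
    intro N
    obtain ⟨τ₀, hτ₀, hcyc, hord⟩ :=
      exists_generator_mod_diag hTAME hMU hp hpA ρ hq hqp hP hI hφ b hD N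
    obtain ⟨j, hj⟩ := hcyc σ hσ
    rw [map_pow, hj, ← pow_mul, mul_comm, pow_mul, hord, one_pow]
  have h1 : (muHom ρ b σ ^ (q - 1) - 1) i i = 0 :=
    eq_zero_of_forall_mem_pow _ fun N => (red_eq_one_iff _ _).1 (hmat N) i i
  rw [Matrix.sub_apply, Matrix.one_apply_eq, sub_eq_zero,
    isDiag_pow_apply (isDiag_muHom hD hσD)] at h1
  rw [chi_eq_muHom]
  exact h1

/-! ### G2b -/

section sep

variable {A : Type} [CommRing A] [IsLocalRing A] [IsNoetherianRing A]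

/-- A finite set of pairs is separated modulo a power of the maximal ideal. -/
lemma exists_separating (t : Finset (Fin 2 → A)) :
    ∃ N : ℕ, ∀ x ∈ t, ∀ y ∈ t, (∀ i, x i - y i ∈ maximalIdeal A ^ N) → x = y := by
  classical
  have hsep : ∀ z : (Fin 2 → A) × (Fin 2 → A), ∃ N : ℕ,
      (∀ i, z.1 i - z.2 i ∈ maximalIdeal A ^ N) → z.1 = z.2 := by
    intro z
    by_cases h : z.1 = z.2
    · exact ⟨0, fun _ => h⟩
    · have h1 : ∃ i, z.1 i ≠ z.2 i := by
        by_contra hne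
        push Not at hne
        exact h (funext hne)
      obtain ⟨i, hi⟩ := h1
      have h2 : ∃ N, z.1 i - z.2 i ∉ maximalIdeal A ^ N := by
        by_contra hall
        push Not at hall
        exact hi (sub_eq_zero.1 (eq_zero_of_forall_mem_pow _ hall))
      obtain ⟨N, hN⟩ := h2
      exact ⟨N, fun hh => absurd (hh i) hN⟩
  choose f hf using hsep
  refine ⟨(t ×ˢ t).sup f, fun x hx y hy hxy => ?_⟩
  have hle : f (x, y) ≤ (t ×ˢ t).sup f :=
    Finset.le_sup (f := f) (Finset.mem_product.2 ⟨hx, hy⟩)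
  exact hf (x, y) fun i => Ideal.pow_le_pow_right hle (hxy i)

end sep

/-- **G2b**: the image of inertia under the pair of characters is cyclic. -/
theorem stmt_G2b (hTAME : Stmt_TAME) (hMU : Stmt_MatUnip) : Stmt_G2b := by
  classical
  intro A _ _ _ p hp hpA ρ q hq hqp P hP hI φ hφ b hD
  have hq2 : 2 ≤ q := hq.two_le
  have hID : ∀ σ ∈ P.inertiaSubgroupIn ℚ, σ ∈ P.decompositionSubgroup ℚ := by
    rintro _ ⟨s, -, rfl⟩
    exact s.2
  -- the pair of characters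
  let X : GQ → (Fin 2 → A) := fun σ i => chi ρ b i σ
  have hX : ∀ σ i, X σ i = chi ρ b i σ := fun _ _ => rfl
  -- cyclicity at level `N`
  have hlevel : ∀ N : ℕ, ∃ τ₀ ∈ P.inertiaSubgroupIn ℚ, ∀ σ ∈ P.inertiaSubgroupIn ℚ,
      ∃ j : ℕ, j < q - 1 ∧ ∀ i, X σ i - X τ₀ i ^ j ∈ maximalIdeal A ^ N := by
    intro N
    obtain ⟨τ₀, hτ₀, hcyc, hord⟩ :=
      exists_generator_mod_diag hTAME hMU hp hpA ρ hq hqp hP hI hφ b hD N
    refine ⟨τ₀, hτ₀, fun σ hσ => ?_⟩
    obtain ⟨j, hj⟩ := hcyc σ hσ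
    refine ⟨j % (q - 1), Nat.mod_lt _ (by omega), fun i => ?_⟩
    have hjmod : red (maximalIdeal A ^ N) (muHom ρ b τ₀) ^ j =
        red (maximalIdeal A ^ N) (muHom ρ b τ₀) ^ (j % (q - 1)) := by
      conv_lhs => rw [← Nat.div_add_mod j (q - 1), pow_add, pow_mul, hord, one_pow, one_mul]
    have h3 : red (maximalIdeal A ^ N) (muHom ρ b σ - muHom ρ b τ₀ ^ (j % (q - 1))) = 0 := by
      rw [map_sub, hj, hjmod, map_pow, sub_self]
    have h4 : (muHom ρ b σ - muHom ρ b τ₀ ^ (j % (q - 1))) i i ∈ maximalIdeal A ^ N := by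
      rw [← red_apply_eq_zero_iff, h3, Matrix.zero_apply]
    rw [Matrix.sub_apply, isDiag_pow_apply (isDiag_muHom hD (hID τ₀ hτ₀))] at h4
    rw [hX, hX, chi_eq_muHom, chi_eq_muHom]
    exact h4
  -- the image is finite
  have hfin : (X '' (P.inertiaSubgroupIn ℚ : Set GQ)).Finite := by
    by_contra hinf
    obtain ⟨t, htH, htc⟩ := (Set.not_finite.1 hinf : Set.Infinite _).exists_subset_card_eq q
    obtain ⟨N, hN⟩ := exists_separating t
    obtain ⟨τ₀, hτ₀, hτ⟩ := hlevel N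
    have hj : ∀ x ∈ t, ∃ j, j < q - 1 ∧ ∀ i, x i - X τ₀ i ^ j ∈ maximalIdeal A ^ N := by
      intro x hx
      obtain ⟨σ, hσ, rfl⟩ := htH hx
      exact hτ σ hσ
    choose! J hJ1 hJ2 using hj
    have hcard : t.card ≤ (Finset.range (q - 1)).card := by
      refine Finset.card_le_card_of_injOn J
        (fun x hx => Finset.mem_range.2 (hJ1 x hx)) ?_
      intro x hx y hy hxy
      refine hN x hx y hy fun i => ?_
      have h1 := hJ2 x hx i
      have h2 := hJ2 y hy i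
      rw [hxy] at h1
      have h3 := (maximalIdeal A ^ N).sub_mem h1 h2
      rwa [sub_sub_sub_cancel_right] at h3
    rw [Finset.card_range, htc] at hcard
    omega
  -- a separating level
  obtain ⟨N, hN⟩ := exists_separating hfin.toFinset
  obtain ⟨τ₀, hτ₀, hτ⟩ := hlevel N
  refine ⟨τ₀, hτ₀, fun σ hσ => ?_⟩
  obtain ⟨j, -, hj⟩ := hτ σ hσ
  refine ⟨j, fun i => ?_⟩
  have hmem1 : X σ ∈ hfin.toFinset := (Set.Finite.mem_toFinset _).2 ⟨σ, hσ, rfl⟩
  have hmem2 : X (τ₀ ^ j) ∈ hfin.toFinset :=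
    (Set.Finite.mem_toFinset _).2 ⟨τ₀ ^ j, pow_mem hτ₀ j, rfl⟩
  have h5 := hN _ hmem1 _ hmem2 (fun i => by
    rw [hX, hX, chi_pow hD (hID τ₀ hτ₀), ← hX, ← hX]
    exact hj i)
  have h6 := congrFun h5 i
  rw [hX, hX, chi_pow hD (hID τ₀ hτ₀)] at h6
  exact h6

end Fermat.Agent.S59.TWGal.H41
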