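/-
S59, package TW-GAL, leaves G2a and G2b, unconditional (helper41).
-/
import Fermat.Agent.S59.TWGal.H41_G2
import Fermat.Agent.S59.TWGal.H01_MatUnip
import Fermat.Agent.S59.TWGal.H59_Tame

set_option autoImplicit false

namespace Fermat.Agent.S59.TWGal.H41

/-- **G2a**, unconditional. -/
theorem stmt_G2a_final : Stmt_G2a := stmt_G2a H59.stmt_TAME H01.stmt_MatUnip

/-- **G2b**, unconditional. -/
theorem stmt_G2b_final : Stmt_G2b := stmt_G2b H59.stmt_TAME H01.stmt_MatUnip

end Fermat.Agent.S59.TWGal.H41
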