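/-
S59 TW-GAL, leaf MAT-D (helper52): the tame relation `F Y F⁻¹ = Y ^ q` forces `Y ≡ 1 mod I` to be
diagonal modulo `I ^ N` in an eigenbasis of `F = diag(a, b)` when `a - q b`, `b - q a` are units.

Proof: if `Y₀₁ ∈ I ^ n` then `(Y ^ m)₀₁ ≡ m Y₀₁ mod I ^ (n+1)` (induction on `m`), so
`(a - q b) Y₀₁ ∈ I ^ (n+1)` as long as `n + 1 ≤ N`.
-/
import Fermat.Agent.S59.TWGal.Defs

set_option autoImplicit false

namespace Fermat.Agent.S59.TWGal.H52

variable {A : Type*} [CommRing A]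

/-- `Y ≡ 1 mod I` implies `Y ^ m ≡ 1 mod I`. -/
theorem pow_sub_one_mem {I : Ideal A} {Y : Matrix (Fin 2) (Fin 2) A}
    (hY : ∀ i j, (Y - 1) i j ∈ I) (m : ℕ) : ∀ i j, (Y ^ m - 1) i j ∈ I := by
  induction m with
  | zero =>
    intro i j
    rw [pow_zero, sub_self]
    exact I.zero_mem
  | succ m ih =>
    intro i j
    have e : Y ^ (m + 1) - 1 = (Y ^ m - 1) * Y + (Y - 1) := by
      rw [pow_succ, sub_mul, one_mul]
      abel
    rw [e, Matrix.add_apply, Matrix.mul_apply, Fin.sum_univ_two]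
    exact I.add_mem (I.add_mem (I.mul_mem_right _ (ih i 0)) (I.mul_mem_right _ (ih i 1))) (hY i j)

theorem entry_01 (Y Z : Matrix (Fin 2) (Fin 2) A) :
    (Z * Y) 0 1 = Z 0 0 * Y 0 1 + Z 0 1 * Y 1 1 := by
  rw [Matrix.mul_apply, Fin.sum_univ_two]

theorem entry_10 (Y Z : Matrix (Fin 2) (Fin 2) A) :
    (Z * Y) 1 0 = Z 1 0 * Y 0 0 + Z 1 1 * Y 1 0 := by
  rw [Matrix.mul_apply, Fin.sum_univ_two]

/-- `(Y ^ m)₀₁ ≡ m Y₀₁` modulo `I · J` if `Y ≡ 1 mod I` and `Y₀₁ ∈ J`. -/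
theorem pow_01_sub {I J : Ideal A} {Y : Matrix (Fin 2) (Fin 2) A}
    (hY : ∀ i j, (Y - 1) i j ∈ I) (h01 : Y 0 1 ∈ J) (m : ℕ) :
    (Y ^ m) 0 1 - (m : A) * Y 0 1 ∈ I * J := by
  induction m with
  | zero => simp
  | succ m ih =>
    have h00 : (Y ^ m) 0 0 - 1 ∈ I := by simpa using pow_sub_one_mem hY m 0 0
    have h11 : Y 1 1 - 1 ∈ I := by simpa using hY 1 1
    have e : (Y ^ (m + 1)) 0 1 - ((m + 1 : ℕ) : A) * Y 0 1
        = ((Y ^ m) 0 0 - 1) * Y 0 1 + ((Y ^ m) 0 1 - (m : A) * Y 0 1) * Y 1 1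
          + (Y 1 1 - 1) * ((m : A) * Y 0 1) := by
      rw [pow_succ, entry_01]
      push_cast
      ring
    rw [e]
    refine (I * J).add_mem ((I * J).add_mem ?_ ?_) ?_
    · exact Ideal.mul_mem_mul h00 h01
    · exact (I * J).mul_mem_right _ ih
    · exact Ideal.mul_mem_mul h11 (J.mul_mem_left _ h01)

/-- `(Y ^ m)₁₀ ≡ m Y₁₀` modulo `I · J` if `Y ≡ 1 mod I` and `Y₁₀ ∈ J`. -/
theorem pow_10_sub {I J : Ideal A} {Y : Matrix (Fin 2) (Fin 2) A}
    (hY : ∀ i j, (Y - 1) i j ∈ I) (h10 : Y 1 0 ∈ J) (m : ℕ) :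
    (Y ^ m) 1 0 - (m : A) * Y 1 0 ∈ I * J := by
  induction m with
  | zero => simp
  | succ m ih =>
    have h11 : (Y ^ m) 1 1 - 1 ∈ I := by simpa using pow_sub_one_mem hY m 1 1
    have h00 : Y 0 0 - 1 ∈ I := by simpa using hY 0 0
    have e : (Y ^ (m + 1)) 1 0 - ((m + 1 : ℕ) : A) * Y 1 0
        = ((Y ^ m) 1 1 - 1) * Y 1 0 + ((Y ^ m) 1 0 - (m : A) * Y 1 0) * Y 0 0
          + (Y 0 0 - 1) * ((m : A) * Y 1 0) := by
      rw [pow_succ, entry_10]
      push_cast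
      ring
    rw [e]
    refine (I * J).add_mem ((I * J).add_mem ?_ ?_) ?_
    · exact Ideal.mul_mem_mul h11 h10
    · exact (I * J).mul_mem_right _ ih
    · exact Ideal.mul_mem_mul h00 (J.mul_mem_left _ h10)

/-- **TWG-MATD**. -/
theorem stmt_MatDiag : Stmt_MatDiag := by
  intro A _ I N q a b hab hba Y hY hrel
  have r01 : a * Y 0 1 - (Y ^ q) 0 1 * b ∈ I ^ N := by
    have := hrel 0 1
    rwa [Matrix.sub_apply, Matrix.diagonal_mul, Matrix.mul_diagonal, Matrix.cons_val_zero,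
      Matrix.cons_val_one] at this
  have r10 : b * Y 1 0 - (Y ^ q) 1 0 * a ∈ I ^ N := by
    have := hrel 1 0
    rwa [Matrix.sub_apply, Matrix.diagonal_mul, Matrix.mul_diagonal, Matrix.cons_val_zero,
      Matrix.cons_val_one] at this
  have key : ∀ n : ℕ, n ≤ N → Y 0 1 ∈ I ^ n ∧ Y 1 0 ∈ I ^ n := by
    intro n
    induction n with
    | zero =>
      intro _
      rw [pow_zero, Ideal.one_eq_top]
      exact ⟨Submodule.mem_top, Submodule.mem_top⟩
    | succ n ih =>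
      intro hn
      obtain ⟨h01, h10⟩ := ih (Nat.le_of_succ_le hn)
      have hle : I ^ N ≤ I ^ (n + 1) := Ideal.pow_le_pow_right hn
      have hmul : I * I ^ n = I ^ (n + 1) := (pow_succ' I n).symm
      have p01 := pow_01_sub hY h01 q
      have p10 := pow_10_sub hY h10 q
      rw [hmul] at p01 p10
      constructor
      · have e : (a - (q : A) * b) * Y 0 1
            = (a * Y 0 1 - (Y ^ q) 0 1 * b) + b * ((Y ^ q) 0 1 - (q : A) * Y 0 1) := by ring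
        have h1 : (a - (q : A) * b) * Y 0 1 ∈ I ^ (n + 1) := by
          rw [e]
          exact (I ^ (n + 1)).add_mem (hle r01) ((I ^ (n + 1)).mul_mem_left _ p01)
        obtain ⟨u, hu⟩ := hab
        have e2 : Y 0 1 = (↑u⁻¹ : A) * ((a - (q : A) * b) * Y 0 1) := by
          rw [← hu, ← mul_assoc, Units.inv_mul, one_mul]
        rw [e2]
        exact (I ^ (n + 1)).mul_mem_left _ h1
      · have e : (b - (q : A) * a) * Y 1 0
            = (b * Y 1 0 - (Y ^ q) 1 0 * a) + a * ((Y ^ q) 1 0 - (q : A) * Y 1 0) := by ring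
        have h1 : (b - (q : A) * a) * Y 1 0 ∈ I ^ (n + 1) := by
          rw [e]
          exact (I ^ (n + 1)).add_mem (hle r10) ((I ^ (n + 1)).mul_mem_left _ p10)
        obtain ⟨u, hu⟩ := hba
        have e2 : Y 1 0 = (↑u⁻¹ : A) * ((b - (q : A) * a) * Y 1 0) := by
          rw [← hu, ← mul_assoc, Units.inv_mul, one_mul]
        rw [e2]
        exact (I ^ (n + 1)).mul_mem_left _ h1
  exact key N le_rfl

end Fermat.Agent.S59.TWGal.H52
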