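/-
S59 TW-GAL, leaf MAT-U (helper52): `1 + M₂(I)` has no prime-to-`p` torsion modulo `I ^ N`.

If `Y ≡ 1 mod I`, `p ∈ I`, `m` prime to `p` and `Y ^ m ≡ 1 mod I ^ N` then `Y ≡ 1 mod I ^ N`.
Proof: for `X = Y - 1 ∈ M(I ^ n)` one has `Y ^ m - 1 - m X ∈ M(I ^ (2n))`; Bezout.
-/
import Fermat.Agent.S59.TWGal.Defs

set_option autoImplicit false

namespace Fermat.Agent.S59.TWGal.H52

variable {A : Type*} [CommRing A]

/-- All entries of `Z` lie in the ideal `J`. -/
def InIdeal (J : Ideal A) (Z : Matrix (Fin 2) (Fin 2) A) : Prop := ∀ i j, Z i j ∈ J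

theorem InIdeal.mono {J K : Ideal A} (h : J ≤ K) {Z : Matrix (Fin 2) (Fin 2) A}
    (hZ : InIdeal J Z) : InIdeal K Z := fun i j => h (hZ i j)

theorem InIdeal.zero (J : Ideal A) : InIdeal J (0 : Matrix (Fin 2) (Fin 2) A) :=
  fun _ _ => J.zero_mem

theorem InIdeal.add {J : Ideal A} {Z W : Matrix (Fin 2) (Fin 2) A} (hZ : InIdeal J Z)
    (hW : InIdeal J W) : InIdeal J (Z + W) := fun i j => J.add_mem (hZ i j) (hW i j)

theorem InIdeal.sub {J : Ideal A} {Z W : Matrix (Fin 2) (Fin 2) A} (hZ : InIdeal J Z)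
    (hW : InIdeal J W) : InIdeal J (Z - W) := fun i j => J.sub_mem (hZ i j) (hW i j)

theorem InIdeal.smul {J : Ideal A} (c : A) {Z : Matrix (Fin 2) (Fin 2) A} (hZ : InIdeal J Z) :
    InIdeal J (c • Z) := fun i j => by
  rw [Matrix.smul_apply, smul_eq_mul]
  exact J.mul_mem_left c (hZ i j)

theorem InIdeal.nsmul {J : Ideal A} (c : ℕ) {Z : Matrix (Fin 2) (Fin 2) A} (hZ : InIdeal J Z) :
    InIdeal J (c • Z) := fun i j => by
  rw [Matrix.smul_apply, nsmul_eq_mul]
  exact J.mul_mem_left _ (hZ i j)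

theorem InIdeal.mul {J K : Ideal A} {Z W : Matrix (Fin 2) (Fin 2) A} (hZ : InIdeal J Z)
    (hW : InIdeal K W) : InIdeal (J * K) (Z * W) := fun i j => by
  rw [Matrix.mul_apply, Fin.sum_univ_two]
  exact (J * K).add_mem (Ideal.mul_mem_mul (hZ i 0) (hW 0 j)) (Ideal.mul_mem_mul (hZ i 1) (hW 1 j))

theorem InIdeal.mul_right {J : Ideal A} {Z : Matrix (Fin 2) (Fin 2) A} (hZ : InIdeal J Z)
    (W : Matrix (Fin 2) (Fin 2) A) : InIdeal J (Z * W) := fun i j => by
  rw [Matrix.mul_apply, Fin.sum_univ_two]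
  exact J.add_mem (J.mul_mem_right _ (hZ i 0)) (J.mul_mem_right _ (hZ i 1))

/-- `(1 + X) ^ m - 1 - m X ∈ M(J²)` for `X ∈ M(J)`. -/
theorem pow_sub_one_sub_nsmul {J : Ideal A} {X : Matrix (Fin 2) (Fin 2) A} (hX : InIdeal J X)
    (m : ℕ) : InIdeal (J * J) ((1 + X) ^ m - 1 - m • X) := by
  induction m with
  | zero =>
    have e : (1 + X) ^ 0 - 1 - 0 • X = 0 := by simp
    rw [e]
    exact InIdeal.zero _
  | succ m ih =>
    have e : (1 + X) ^ (m + 1) - 1 - (m + 1) • X
        = ((1 + X) ^ m - 1 - m • X) * (1 + X) + m • (X * X) := by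
      rw [pow_succ, succ_nsmul, sub_mul, sub_mul, mul_add (m • X), mul_one, smul_mul_assoc,
        one_mul]
      abel
    rw [e]
    exact (ih.mul_right _).add ((hX.mul hX).nsmul m)

/-- **TWG-MATU**. -/
theorem stmt_MatUnip : Stmt_MatUnip := by
  intro A _ I p m N hp hmp Y hY hYm
  set X : Matrix (Fin 2) (Fin 2) A := Y - 1 with hXdef
  have hYX : Y = 1 + X := by rw [hXdef]; abel
  have hX1 : InIdeal I X := hY
  have hXm : InIdeal (I ^ N) ((1 + X) ^ m - 1) := by rw [← hYX]; exact hYm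
  obtain ⟨u, v, huv⟩ : IsCoprime (m : ℤ) (p : ℤ) := Nat.isCoprime_iff_coprime.2 hmp
  have key : ∀ n : ℕ, n ≤ N → InIdeal (I ^ n) X := by
    intro n
    induction n with
    | zero =>
      intro _ i j
      rw [pow_zero, Ideal.one_eq_top]
      exact Submodule.mem_top
    | succ n ih =>
      intro hn
      rcases Nat.eq_zero_or_pos n with h0 | hpos
      · subst h0
        rw [zero_add, pow_one]
        exact hX1
      have hXn : InIdeal (I ^ n) X := ih (Nat.le_of_succ_le hn)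
      have h2n : I ^ n * I ^ n ≤ I ^ (n + 1) := by
        rw [← pow_add]
        exact Ideal.pow_le_pow_right (by omega)
      have h1 : InIdeal (I ^ (n + 1)) ((1 + X) ^ m - 1 - m • X) :=
        (pow_sub_one_sub_nsmul hXn m).mono h2n
      have h2 : InIdeal (I ^ (n + 1)) ((1 + X) ^ m - 1) :=
        hXm.mono (Ideal.pow_le_pow_right hn)
      have h3 : InIdeal (I ^ (n + 1)) (m • X) := by
        have e : m • X = ((1 + X) ^ m - 1) - ((1 + X) ^ m - 1 - m • X) := by abel
        rw [e]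
        exact h2.sub h1
      have h4 : InIdeal (I ^ (n + 1)) (p • X) := by
        intro i j
        rw [Matrix.smul_apply, nsmul_eq_mul, pow_succ']
        exact Ideal.mul_mem_mul hp (hXn i j)
      intro i j
      have e : X i j = (u : A) * ((m • X) i j) + (v : A) * ((p • X) i j) := by
        rw [Matrix.smul_apply, Matrix.smul_apply, nsmul_eq_mul, nsmul_eq_mul]
        have h5 : ((u * (m : ℤ) + v * (p : ℤ) : ℤ) : A) = 1 := by rw [huv]; simp
        push_cast at h5
        linear_combination (-(X i j)) * h5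
      rw [e]
      exact (I ^ (n + 1)).add_mem ((I ^ (n + 1)).mul_mem_left _ (h3 i j))
        ((I ^ (n + 1)).mul_mem_left _ (h4 i j))
  exact key N le_rfl

end Fermat.Agent.S59.TWGal.H52
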